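import Fermat.Agent.S48.H908.CoreG
import Fermat.Agent.S48.F1.Defs

/-!
# S48 / RES (Tower A1) — piece CORE1, part 2 (helper908): the Kummer core for `F1 M`

* `divCoeff_eq_sum`, `divGenC_eq_sum` : for `M ∣ M'` the division value `P_b` of level `M` is the
  sum of the division values `P_c` of level `M'` over the classes `c ↦ b`;
* `F1C_le_of_dvd`, `F1_le_of_dvd` : monotonicity of the function field of `X₁(M)` in the level
  (over any field of constants);
* `core1` : `CoreG (F1 M) A Fk ℓ` (the hypothesis `hcore` of helper136's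
  `eskG_inertia` / `eskG_frob`) for ALL `M ≠ 0`, all primes `p ∤ M ℓ`, all `A` over `p` and ALL
  reduction fields `Fk`, from
  - `Mod1Hyp` : the MOD deliverable (`HasGoodFamilyMin`) at GOOD levels only
               (`p ≥ 5`, or `p = 3 ∧ 2 ∣ M`, or `p = 2 ∧ 3 ∣ M`),
  - `FinHyp`  : `ℚ̄·F1(M)` is a function field in one variable,
  - `DegHyp`  : `[ℚ̄·F1(M a) : ℚ̄·F1(M)]` divides `a² - 1` for a prime `a ∤ M`
               (only used for `a = 2, 3`).
  For `p = 3, 2 ∤ M` resp. `p = 2, 3 ∤ M` the core descends from level `2M` resp. `3M` by the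
  norm trick (`coreG_of_le`): NO pull-back data on `Pic⁰` are needed.
-/

set_option autoImplicit false
set_option linter.style.haveILetI false

noncomputable section

namespace Fermat.Agent.S48.H908.Core1

open ModularCurve AlgebraicCurve HahnSeries IsLocalRing
open Fermat.Agent.S18 (Qb)
open Fermat.Agent.S48.H136 (IsIntG toFG CoreG)
open Fermat.Agent.S48.F1

/-! ### Monotonicity of `F1C K M` in the level -/

section Mono

variable {M M' : ℕ} [NeZero M']

/-- The classes of level `M'` above a class of level `M`. -/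
def fibre908 (h : M ∣ M') (b : ZMod M) : Finset (ZMod M') :=
  Finset.univ.filter fun c => ZMod.castHom h (ZMod M) c = b

theorem ne_zero_of_mem_fibre908 (h : M ∣ M') {b : ZMod M} (hb : b ≠ 0) {c : ZMod M'}
    (hc : c ∈ fibre908 h b) : c ≠ 0 := by
  rintro rfl
  rw [fibre908, Finset.mem_filter] at hc
  exact hb (by rw [← hc.2, map_zero])

theorem divCoeff_eq_sum (h : M ∣ M') (b : ZMod M) (k n : ℕ) :
    divCoeff M b k n = ∑ c ∈ fibre908 h b, divCoeff M' c k n := by
  classical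
  unfold divCoeff fibre908
  rw [Finset.sum_comm]
  refine Finset.sum_congr rfl fun m _ => ?_
  rw [Finset.sum_add_distrib, Finset.sum_filter, Finset.sum_filter]
  have hcast : ZMod.castHom h (ZMod M) ((m : ℕ) : ZMod M') = ((m : ℕ) : ZMod M) := map_natCast _ m
  congr 1
  · have : ∀ c : ZMod M', (if ZMod.castHom h (ZMod M) c = b then
        (if ((m : ℕ) : ZMod M') = c then ((n / m : ℕ) : ℤ) ^ (k - 1) else 0) else 0)
        = if ((m : ℕ) : ZMod M') = c then
            (if ZMod.castHom h (ZMod M) c = b then ((n / m : ℕ) : ℤ) ^ (k - 1) else 0) else 0 := by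
      intro c
      split_ifs <;> rfl
    rw [Finset.sum_congr rfl fun c _ => this c, Finset.sum_ite_eq Finset.univ, if_pos (Finset.mem_univ _), hcast]
  · have : ∀ c : ZMod M', (if ZMod.castHom h (ZMod M) c = b then
        (if ((m : ℕ) : ZMod M') = -c then (-1) ^ k * ((n / m : ℕ) : ℤ) ^ (k - 1) else 0) else 0)
        = if -((m : ℕ) : ZMod M') = c then
            (if ZMod.castHom h (ZMod M) c = b then (-1) ^ k * ((n / m : ℕ) : ℤ) ^ (k - 1) else 0)
            else 0 := by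
      intro c
      have hiff : ((m : ℕ) : ZMod M') = -c ↔ -((m : ℕ) : ZMod M') = c :=
        ⟨fun h1 => by rw [h1, neg_neg], fun h1 => by rw [← h1, neg_neg]⟩
      by_cases h1 : ((m : ℕ) : ZMod M') = -c
      · rw [if_pos h1, if_pos (hiff.mp h1)]
      · rw [if_neg h1, if_neg (fun h2 => h1 (hiff.mpr h2))]
        split_ifs <;> rfl
    rw [Finset.sum_congr rfl fun c _ => this c, Finset.sum_ite_eq Finset.univ,
      if_pos (Finset.mem_univ _), map_neg, hcast]
    have hiff : -((m : ℕ) : ZMod M) = b ↔ ((m : ℕ) : ZMod M) = -b :=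
      ⟨fun h1 => by rw [← h1, neg_neg], fun h1 => by rw [h1, neg_neg]⟩
    by_cases h1 : ((m : ℕ) : ZMod M) = -b
    · rw [if_pos h1, if_pos (hiff.mpr h1)]
    · rw [if_neg h1, if_neg (fun h2 => h1 (hiff.mp h2))]

theorem divSeries_eq_sum (h : M ∣ M') (b : ZMod M) (k : ℕ) :
    divSeries M b k = ∑ c ∈ fibre908 h b, divSeries M' c k := by
  ext n
  rw [coeff_divSeries, map_sum, divCoeff_eq_sum h]
  exact Finset.sum_congr rfl fun c _ => (coeff_divSeries M' c k n).symm

theorem divNum_eq_sum (h : M ∣ M') (b : ZMod M) :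
    divNum M b = ∑ c ∈ fibre908 h b, divNum M' c := by
  unfold divNum
  rw [divSeries_eq_sum h, Finset.sum_mul]

theorem divGenC_eq_sum (R : Type*) [CommRing R] (h : M ∣ M') (b : ZMod M) :
    divGenC R M b = ∑ c ∈ fibre908 h b, divGenC R M' c := by
  unfold divGenC
  rw [divNum_eq_sum h, map_sum, map_sum, Finset.mul_sum]

/-- Monotonicity of the function field of `X₁(M)` in the level, over any field of constants. -/
theorem F1C_le_of_dvd (K : Type*) [Field K] (h : M ∣ M') : F1C K M ≤ F1C K M' := by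
  rw [F1C, IntermediateField.adjoin_le_iff]
  rintro x (hx | hx)
  · obtain ⟨d, hd, hdM, rfl⟩ := hx
    exact IntermediateField.subset_adjoin K _
      (Or.inl (mem_divisorExpansionsC K M' (hdM.trans h)))
  · obtain ⟨b, hb, rfl⟩ := hx
    rw [divGenC_eq_sum K h b]
    exact sum_mem fun c hc => divGenC_mem_F1C K M' (ne_zero_of_mem_fibre908 h hb hc)

/-- Monotonicity of `F1 M` in the level. -/
theorem F1_le_of_dvd (h : M ∣ M') : F1 M ≤ F1 M' := by
  rw [← F1C_rat, ← F1C_rat]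
  exact F1C_le_of_dvd ℚ h

end Mono

/-! ### The Kummer core for `F1 M` -/

/-- **MOD1** (hypothesis): the MOD deliverable at the GOOD levels
(`p ≥ 5`, or `p = 3 ∧ 2 ∣ M`, or `p = 2 ∧ 3 ∣ M`), in the minimal abstract form used by the glue
(with the largest reduction field `Fk = ⊤`, i.e. for ALL pairs of integral series of `ℚ̄·F1 M` with
nonzero, equal reductions). -/
def Mod1Hyp : Prop :=
  ∀ (M p : ℕ), M ≠ 0 → p.Prime → ¬ p ∣ M → (p = 3 → 2 ∣ M) → (p = 2 → 3 ∣ M) →
    ∀ A : ValuationSubring Qb, A.LiesOverPrime p → ∀ m : ℕ, m.Prime → ¬ p ∣ m →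
      ∃ (x : OmG (F1 M)) (S : Finset (OmG (F1 M))),
        HasGoodFamilyMin (F1 M) A ⊤ m x S

/-- **MOD1**, concrete form (the exact analogue of `S18.Mod.GoodModelStatement`). -/
def Mod1HypG : Prop :=
  ∀ (M p : ℕ), M ≠ 0 → p.Prime → ¬ p ∣ M → (p = 3 → 2 ∣ M) → (p = 2 → 3 ∣ M) →
    ∀ A : ValuationSubring Qb, A.LiesOverPrime p →
      ∃ (x : OmG (F1 M)) (S : Finset (OmG (F1 M))), HasGoodFamilyG (F1 M) A x S

theorem mod1Hyp_of_G (h : Mod1HypG) : Mod1Hyp := by
  intro M p hM hp hpM h3 h2 A hA m _ hpm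
  obtain ⟨x, S, hxS⟩ := h M p hM hp hpM h3 h2 A hA
  exact ⟨x, S, hasGoodFamilyMin_of_goodFamily hp hA hpm hxS⟩

/-- **FF-ALG, finiteness** (hypothesis): `ℚ̄·F1(M)` is a function field in one variable. -/
def FinHyp : Prop :=
  ∀ M : ℕ, M ≠ 0 → ∃ x₀ : OmG (F1 M), Transcendental Qb x₀ ∧
    FiniteDimensional (IntermediateField.adjoin Qb {x₀}) (OmG (F1 M))

/-- **FF-ALG, degrees** (hypothesis): `[ℚ̄·F1(M a) : ℚ̄·F1(M)]` divides `a² - 1`
(`a` prime, `a ∤ M`; only used for `a = 2, 3`). -/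
def DegHyp : Prop :=
  ∀ (M a : ℕ), M ≠ 0 → a.Prime → ¬ a ∣ M →
    (laurentBaseChange Qb (F1 M)).relfinrank (laurentBaseChange Qb (F1 (M * a))) ∣ a ^ 2 - 1

/-- The Kummer core at a good level (for the largest reduction field). -/
theorem core1_good (hmod : Mod1Hyp) (hfin : FinHyp) (M ℓ p : ℕ) (hM : M ≠ 0) (hℓ : ℓ.Prime)
    (hp : p.Prime) (hpM : ¬ p ∣ M) (hpℓ : ¬ p ∣ ℓ) (h3 : p = 3 → 2 ∣ M) (h2 : p = 2 → 3 ∣ M)
    (A : ValuationSubring Qb) (hA : A.LiesOverPrime p) :
    CoreG (F1 M) A ⊤ ℓ := by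
  obtain ⟨x, S, hxS⟩ := hmod M p hM hp hpM h3 h2 A hA ℓ hℓ hpℓ
  obtain ⟨x₀, hx₀, hfd⟩ := hfin M hM
  exact coreG_of_min (F1 M) A _ ℓ hℓ hx₀ x S hxS

/-- Descent of the core from level `M a` to level `M` (`a` prime, `a ∤ M`, `ℓ ∤ a² - 1`). -/
theorem core1_descend (hdeg : DegHyp) (M a ℓ : ℕ) (hM : M ≠ 0) (ha : a.Prime) (haM : ¬ a ∣ M)
    (hcop : Nat.Coprime (a ^ 2 - 1) ℓ) (A : ValuationSubring Qb)
    (h : CoreG (F1 (M * a)) A ⊤ ℓ) :
    CoreG (F1 M) A ⊤ ℓ := by
  haveI : NeZero (M * a) := ⟨Nat.mul_ne_zero hM ha.ne_zero⟩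
  have hd := hdeg M a hM ha haM
  have ha1 : a ^ 2 - 1 ≠ 0 := by
    have : 2 ≤ a := ha.two_le
    have : 4 ≤ a ^ 2 := by nlinarith
    omega
  refine coreG_of_le (F1_le_of_dvd (Dvd.intro a rfl)) A le_rfl ℓ ?_ ?_ h
  · rintro h0
    rw [h0, zero_dvd_iff] at hd
    exact ha1 hd
  · exact Nat.Coprime.coprime_dvd_left hd hcop

/-- **CORE1**, for the largest reduction field `Fk = ⊤`. -/
theorem core1_top (hmod : Mod1Hyp) (hfin : FinHyp) (hdeg : DegHyp) (M ℓ p : ℕ) (hM : M ≠ 0)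
    (hℓ : ℓ.Prime) (hp : p.Prime) (hpMℓ : ¬ p ∣ M * ℓ) (A : ValuationSubring Qb)
    (hA : A.LiesOverPrime p) : CoreG (F1 M) A ⊤ ℓ := by
  have hpM : ¬ p ∣ M := fun h => hpMℓ (h.mul_right ℓ)
  have hpℓ : ¬ p ∣ ℓ := fun h => hpMℓ (h.mul_left M)
  have hℓp : ℓ ≠ p := fun h => hpℓ (h ▸ dvd_rfl)
  by_cases h3 : p = 3
  · subst h3
    by_cases h2M : 2 ∣ M
    · exact core1_good hmod hfin M ℓ 3 hM hℓ hp hpM hpℓ (fun _ => h2M) (fun h => by omega) A hA
    · have hM2 : M * 2 ≠ 0 := Nat.mul_ne_zero hM (by norm_num)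
      have hp2 : ¬ 3 ∣ M * 2 := by
        intro h
        rcases (Nat.Prime.dvd_mul hp).mp h with h | h
        · exact hpM h
        · omega
      have hcore := core1_good hmod hfin (M * 2) ℓ 3 hM2 hℓ hp hp2 hpℓ
        (fun _ => Dvd.intro_left M rfl) (fun h => by omega) A hA
      refine core1_descend hdeg M 2 ℓ hM Nat.prime_two h2M ?_ A hcore
      have : (2 ^ 2 - 1 : ℕ) = 3 := by norm_num
      rw [this]
      exact (Nat.coprime_primes hp hℓ).mpr (Ne.symm hℓp)
  · by_cases h2 : p = 2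
    · subst h2
      by_cases h3M : 3 ∣ M
      · exact core1_good hmod hfin M ℓ 2 hM hℓ hp hpM hpℓ (fun h => by omega) (fun _ => h3M) A hA
      · have hM3 : M * 3 ≠ 0 := Nat.mul_ne_zero hM (by norm_num)
        have hp3 : ¬ 2 ∣ M * 3 := by
          intro h
          rcases (Nat.Prime.dvd_mul hp).mp h with h | h
          · exact hpM h
          · omega
        have hcore := core1_good hmod hfin (M * 3) ℓ 2 hM3 hℓ hp hp3 hpℓ
          (fun h => by omega) (fun _ => Dvd.intro_left M rfl) A hA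
        refine core1_descend hdeg M 3 ℓ hM Nat.prime_three h3M ?_ A hcore
        have : (3 ^ 2 - 1 : ℕ) = 2 ^ 3 := by norm_num
        rw [this]
        exact Nat.Coprime.pow_left 3 ((Nat.coprime_primes hp hℓ).mpr (Ne.symm hℓp))
    · exact core1_good hmod hfin M ℓ p hM hℓ hp hpM hpℓ (fun h => absurd h h3)
        (fun h => absurd h h2) A hA

/-- **CORE1.**  The Kummer core `CoreG (F1 M) A Fk ℓ` (the hypothesis `hcore` of helper136's
`eskG_inertia` / `eskG_frob`) for every level `M ≠ 0`, all primes `ℓ` and `p ∤ M ℓ`, every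
valuation subring `A` of `ℚ̄` over `p` and EVERY reduction field `Fk`. -/
theorem core1 (hmod : Mod1Hyp) (hfin : FinHyp) (hdeg : DegHyp) (M ℓ p : ℕ) (hM : M ≠ 0)
    (hℓ : ℓ.Prime) (hp : p.Prime) (hpMℓ : ¬ p ∣ M * ℓ) (A : ValuationSubring Qb)
    (hA : A.LiesOverPrime p)
    (Fk : IntermediateField (ResidueField A) (LaurentSeries (ResidueField A))) :
    CoreG (F1 M) A Fk ℓ :=
  coreG_of_top Fk (core1_top hmod hfin hdeg M ℓ p hM hℓ hp hpMℓ A hA)

end Fermat.Agent.S48.H908.Core1
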