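import Fermat.Agent.S48.H908.CoreF1
import Fermat.Agent.S48.H556.RawES1Top

/-!
# S48 / RES (Tower A1) / A1-RED — R6, route through the levels `2M`, `3M` (helper908)

`H556.Core1Top` (the input CORE of `H136.rawES1_of_valTop` / `H556.rawES1_of_val`) from

* `GoodCore1` : `CoreG (F1 M) A ⊤ ℓ` at the GOOD pairs `(M, p)` only
  (`5 ≤ p`, or `p = 3 ∧ 2 ∣ M`, or `p = 2 ∧ 3 ∣ M`: coordinates `j`, `t₂`, `t₃ ∈ F0(M) ≤ F1 M`);
* `Core1.DegHyp` : `[ℚ̄·F1(M a) : ℚ̄·F1(M)] ∣ a² - 1` for a prime `a ∤ M` (used for `a = 2, 3`).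

For `p = 3, 2 ∤ M` (resp. `p = 2, 3 ∤ M`) the core descends from the GOOD pair `(2M, 3)`
(resp. `(3M, 2)`) by the norm trick `Core1.coreG_of_le` along `F1 M ≤ F1 (2M)` (`Core1.F1_le_of_dvd`).
Only fields of the form `F1 M'` occur: NO `F1p M a`, NO pull-back data.
-/

set_option autoImplicit false

noncomputable section

namespace Fermat.Agent.S48.H908.Core1

open ModularCurve AlgebraicCurve HahnSeries IsLocalRing
open Fermat.Agent.S18 (Qb)
open Fermat.Agent.S48.H136 (IsIntG toFG CoreG)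
open Fermat.Agent.S48.F1

/-- The Kummer core at the good pairs `(M, p)`. -/
def GoodCore1 : Prop :=
  ∀ (M ℓ p : ℕ), M ≠ 0 → ℓ.Prime → p.Prime → ¬ p ∣ M → ¬ p ∣ ℓ → (p = 3 → 2 ∣ M) →
    (p = 2 → 3 ∣ M) → ∀ A : ValuationSubring Qb, A.LiesOverPrime p → CoreG (F1 M) A ⊤ ℓ

/-- MOD1 (minimal form) + FIN give the core at the good pairs. -/
theorem goodCore1_of_mod (hmod : Mod1Hyp) (hfin : FinHyp) : GoodCore1 :=
  fun M ℓ p hM hℓ hp hpM hpℓ h3 h2 A hA => core1_good hmod hfin M ℓ p hM hℓ hp hpM hpℓ h3 h2 A hA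

/-- The Kummer core at ALL pairs from the good pairs and the degrees. -/
theorem core1_top_of_good (hgood : GoodCore1) (hdeg : DegHyp) (M ℓ p : ℕ) (hM : M ≠ 0)
    (hℓ : ℓ.Prime) (hp : p.Prime) (hpMℓ : ¬ p ∣ M * ℓ) (A : ValuationSubring Qb)
    (hA : A.LiesOverPrime p) : CoreG (F1 M) A ⊤ ℓ := by
  have hpM : ¬ p ∣ M := fun h => hpMℓ (h.mul_right ℓ)
  have hpℓ : ¬ p ∣ ℓ := fun h => hpMℓ (h.mul_left M)
  have hℓp : ℓ ≠ p := fun h => hpℓ (h ▸ dvd_rfl)
  by_cases h3 : p = 3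
  · subst h3
    by_cases h2M : 2 ∣ M
    · exact hgood M ℓ 3 hM hℓ hp hpM hpℓ (fun _ => h2M) (fun h => by omega) A hA
    · have hM2 : M * 2 ≠ 0 := Nat.mul_ne_zero hM (by norm_num)
      have hp2 : ¬ 3 ∣ M * 2 := by
        intro h
        rcases (Nat.Prime.dvd_mul hp).mp h with h | h
        · exact hpM h
        · omega
      have hcore := hgood (M * 2) ℓ 3 hM2 hℓ hp hp2 hpℓ
        (fun _ => Dvd.intro_left M rfl) (fun h => by omega) A hA
      refine core1_descend hdeg M 2 ℓ hM Nat.prime_two h2M ?_ A hcore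
      have : (2 ^ 2 - 1 : ℕ) = 3 := by norm_num
      rw [this]
      exact (Nat.coprime_primes hp hℓ).mpr (Ne.symm hℓp)
  · by_cases h2 : p = 2
    · subst h2
      by_cases h3M : 3 ∣ M
      · exact hgood M ℓ 2 hM hℓ hp hpM hpℓ (fun h => by omega) (fun _ => h3M) A hA
      · have hM3 : M * 3 ≠ 0 := Nat.mul_ne_zero hM (by norm_num)
        have hp3 : ¬ 2 ∣ M * 3 := by
          intro h
          rcases (Nat.Prime.dvd_mul hp).mp h with h | h
          · exact hpM h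
          · omega
        have hcore := hgood (M * 3) ℓ 2 hM3 hℓ hp hp3 hpℓ
          (fun h => by omega) (fun _ => Dvd.intro_left M rfl) A hA
        refine core1_descend hdeg M 3 ℓ hM Nat.prime_three h3M ?_ A hcore
        have : (3 ^ 2 - 1 : ℕ) = 2 ^ 3 := by norm_num
        rw [this]
        exact Nat.Coprime.pow_left 3 ((Nat.coprime_primes hp hℓ).mpr (Ne.symm hℓp))
    · exact hgood M ℓ p hM hℓ hp hpM hpℓ (fun h => absurd h h3) (fun h => absurd h h2) A hA

/-- **R6.**  `H556.Core1Top` from the core at the good pairs and the degrees. -/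
theorem core1Top_of_good (hgood : GoodCore1) (hdeg : DegHyp) : Fermat.Agent.S48.H556.Core1Top :=
  fun M ℓ p hM hℓ hp hpMℓ A hA => core1_top_of_good hgood hdeg M ℓ p hM hℓ hp hpMℓ A hA

/-- **R6**, from MOD1 (minimal form), FIN and the degrees. -/
theorem core1Top_of_mod (hmod : Mod1Hyp) (hfin : FinHyp) (hdeg : DegHyp) :
    Fermat.Agent.S48.H556.Core1Top :=
  core1Top_of_good (goodCore1_of_mod hmod hfin) hdeg

end Fermat.Agent.S48.H908.Core1
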