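import Fermat.Agent.S48.H136.ESKG
import Fermat.Agent.S18.Alg.Spec
import Fermat.Agent.S18.H438.Front.AlgMain
import Fermat.Agent.Lib.RR.H443.Bridge
import Fermat.Prelude.Def_FLTPrelim_Ramification
import Fermat.Agent.S18.H568.NormDescent
import Fermat.Prelude.Def_AlgebraicCurve_Correspondence

/-!
# S48 / RES (Tower A1) — piece CORE1, part 1 (helper908): the GENERIC glue `MOD + ALG ⟹ CoreG`

Port of `S18/Mod/Defs.lean` + `S18/H965/{GlueLemmas,Glue}.lean` (helper18, helper965) from the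
function field of `X₀(M)` to an ARBITRARY subfield `F₀ ⊆ ℚ((q))` (`Ω := ℚ̄·F₀ = laurentBaseChange ℚ̄ F₀`).

Concrete objects (all sub-objects of `Ω = OmG F₀`):

* `LcG F₀`        constants `ℚ̄`,
* `EcG F₀ E`      constants from `E`,
* `RcG F₀ A E`    constants from `A ∩ E`,
* `FcG F₀ E`      `E · F₀` (the subfield generated by `E` and the image of `F₀`),
* `VcSetG F₀ A E` the Gauss valuation ring of `FcG F₀ E`: quotients `U₁/U₂` of `E`-rational series
                  `U_i ∈ A((q))` lying in `FcG`, with `U₂ ≢ 0` modulo the maximal ideal of `A`.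

`HasGoodFamilyG F₀ A x S` is the MOD deliverable (a directed family of `S18.Alg.GoodModel`s made of
these concrete models and containing a model over a field `E ∋ T` for every finite `T ⊆ ℚ̄`);
for `F₀ = modularFunctionFieldFull M` it is the conclusion of `S18.Mod.GoodModelStatement`.

Main result: `coreG_of_goodFamily` :
`HasGoodFamilyG F₀ A x S` ⟹ `H136.CoreG F₀ A Fk m` for every prime `m` prime to the residue
characteristic (`Fk` arbitrary), which is the hypothesis `CoreG` of helper136's generic raw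
Eichler–Shimura engine (`S48/H136/ESKG.lean`).  ALG = the landed `S18.H438.algMain`.
-/

set_option autoImplicit false
set_option linter.style.haveILetI false

noncomputable section

namespace Fermat.Agent.S48.H908.Core1

open ModularCurve AlgebraicCurve HahnSeries IsLocalRing
open Fermat.Agent.S18 (Qb)
open Fermat.Agent.S18.Alg
open Fermat.Agent.S48.H136 (IsIntG toFG CoreG)

/-! ### The concrete objects -/

section Defs

variable (F₀ : IntermediateField ℚ (LaurentSeries ℚ))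

/-- `Ω = ℚ̄ · F₀`, as a type. -/
abbrev OmG : Type := ↥(laurentBaseChange Qb F₀)

/-- The constants `ℚ̄ ⊆ Ω`. -/
def LcG : Subfield (OmG F₀) := (algebraMap Qb (OmG F₀)).fieldRange

/-- The constants from `E`. -/
def EcG (E : IntermediateField ℚ Qb) : Subfield (OmG F₀) :=
  E.toSubfield.map (algebraMap Qb (OmG F₀))

/-- The constants from `A ∩ E`. -/
def RcG (A : ValuationSubring Qb) (E : IntermediateField ℚ Qb) : Subring (OmG F₀) :=
  (A.toSubring ⊓ E.toSubfield.toSubring).map (algebraMap Qb (OmG F₀))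

/-- The image of `F₀` in `Ω`. -/
def gensG : Set (OmG F₀) := {y | ∃ z ∈ F₀, (y : LaurentSeries Qb) = coeffEmb Qb z}

/-- `Fc = E · F₀`. -/
def FcG (E : IntermediateField ℚ Qb) : Subfield (OmG F₀) :=
  Subfield.closure ((EcG F₀ E : Set (OmG F₀)) ∪ gensG F₀)

/-- A series over `A` is `E`-rational and lies in `Fc`. -/
def IsIntEG (A : ValuationSubring Qb) (E : IntermediateField ℚ Qb) (U : LaurentSeries A) : Prop :=
  (∀ n : ℤ, ((U.coeff n : A) : Qb) ∈ E) ∧
    ∃ f ∈ FcG F₀ E, (f : LaurentSeries Qb) = coeffMap A.subtype U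

/-- The Gauss valuation ring of `Fc`, as a set. -/
def VcSetG (A : ValuationSubring Qb) (E : IntermediateField ℚ Qb) : Set (OmG F₀) :=
  {f | f ∈ FcG F₀ E ∧ ∃ U₁ U₂ : LaurentSeries A, IsIntEG F₀ A E U₁ ∧ IsIntEG F₀ A E U₂ ∧
    coeffMap (IsLocalRing.residue A) U₂ ≠ 0 ∧
    (f : LaurentSeries Qb) * coeffMap A.subtype U₂ = coeffMap A.subtype U₁}

/-- **MOD deliverable, generic form.**  A directed family of good models for the coordinate `x`
with branch set `S`, containing a concrete model over a field `E ∋ T` for every finite set `T` of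
elements of `ℚ̄`. -/
def HasGoodFamilyG (A : ValuationSubring Qb) (x : OmG F₀) (S : Finset (OmG F₀)) : Prop :=
  ∃ 𝓕 : Set (Model (OmG F₀)), GoodFamily (LcG F₀) x S 𝓕 ∧
    ∀ T : Finset Qb, ∃ (E : IntermediateField ℚ Qb) (V : Subring (OmG F₀)) (w : OmG F₀),
      (∀ a ∈ T, a ∈ E) ∧ (V : Set (OmG F₀)) = VcSetG F₀ A E ∧
      ((EcG F₀ E, FcG F₀ E, RcG F₀ A E, V, w) : Model (OmG F₀)) ∈ 𝓕

end Defs

variable {F₀ : IntermediateField ℚ (LaurentSeries ℚ)} {E : IntermediateField ℚ Qb}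

/-! ### Coefficients of elements of `Fc` -/

variable (F₀ E) in
/-- The subfield of `Ω` of series all of whose coefficients lie in `E`. -/
def coeffFieldG : Subfield (OmG F₀) :=
  ((coeffMap (algebraMap (↥E) Qb)).fieldRange).comap
    (algebraMap (OmG F₀) (LaurentSeries Qb))

theorem coeff_mem_of_mem_coeffFieldG {f : OmG F₀} (hf : f ∈ coeffFieldG F₀ E) (n : ℤ) :
    ((f : LaurentSeries Qb)).coeff n ∈ E := by
  obtain ⟨y, hy⟩ := hf
  have h : (f : LaurentSeries Qb) = coeffMap (algebraMap (↥E) Qb) y := hy.symm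
  rw [h, coeffMap_coeff]
  exact (y.coeff n).2

theorem EcG_le_coeffFieldG : EcG F₀ E ≤ coeffFieldG F₀ E := by
  rintro y ⟨a, ha, rfl⟩
  refine ⟨HahnSeries.single 0 ⟨a, ha⟩, ?_⟩
  rw [coeffMap_single]
  change _ = algebraMap Qb (LaurentSeries Qb) a
  rw [algebraMap_laurentSeries_eq_single]
  rfl

theorem gensG_subset_coeffFieldG : gensG F₀ ⊆ (coeffFieldG F₀ E : Set (OmG F₀)) := by
  rintro y ⟨z, -, hz⟩
  refine ⟨coeffMap (algebraMap ℚ (↥E)) z, ?_⟩
  rw [coeffMap_coeffMap]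
  change _ = (y : LaurentSeries Qb)
  rw [hz]
  unfold coeffEmb
  exact coeffMap_congr (RingHom.ext fun c => rfl) _

theorem FcG_le_coeffFieldG : FcG F₀ E ≤ coeffFieldG F₀ E := by
  unfold FcG
  rw [Subfield.closure_le]
  rintro y (hy | hy)
  · exact EcG_le_coeffFieldG hy
  · exact gensG_subset_coeffFieldG hy

/-- Elements of `FcG F₀ E` have all their `q`-expansion coefficients in `E`. -/
theorem coeff_mem_of_mem_FcG {f : OmG F₀} (hf : f ∈ FcG F₀ E) (n : ℤ) :
    ((f : LaurentSeries Qb)).coeff n ∈ E :=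
  coeff_mem_of_mem_coeffFieldG (FcG_le_coeffFieldG hf) n

/-! ### Descent to a number field -/

theorem EcG_le_FcG : EcG F₀ E ≤ FcG F₀ E := fun _ hy =>
  Subfield.subset_closure (Or.inl hy)

theorem algebraMap_mem_EcG {a : Qb} (ha : a ∈ E) : algebraMap Qb (OmG F₀) a ∈ EcG F₀ E :=
  ⟨a, ha, rfl⟩

theorem algebraMap_mem_FcG {a : Qb} (ha : a ∈ E) : algebraMap Qb (OmG F₀) a ∈ FcG F₀ E :=
  EcG_le_FcG (algebraMap_mem_EcG ha)

/-- The image of `F₀` lies in `FcG F₀ E` for every `E`. -/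
theorem exists_mem_FcG_of_mem {z : LaurentSeries ℚ} (hz : z ∈ F₀) :
    ∃ f ∈ FcG F₀ E, (f : LaurentSeries Qb) = coeffEmb Qb z :=
  ⟨⟨coeffEmb Qb z, coeffEmb_mem_laurentBaseChange Qb hz⟩,
    Subfield.subset_closure (Or.inr ⟨z, hz, rfl⟩), rfl⟩

variable (F₀) in
/-- **Descent.**  Every element of `Ω = ℚ̄·F₀` lies in `FcG F₀ E` as soon as the field `E`
contains a certain finite set of constants. -/
theorem exists_finset_seriesG (x : LaurentSeries Qb) (hx : x ∈ laurentBaseChange Qb F₀) :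
    ∃ T : Finset Qb, ∀ E : IntermediateField ℚ Qb, (∀ a ∈ T, a ∈ E) →
      ∃ f ∈ FcG F₀ E, (f : LaurentSeries Qb) = x := by
  classical
  rw [mem_laurentBaseChange_iff] at hx
  induction hx using Subfield.closure_induction with
  | mem y hy =>
      rcases hy with ⟨a, rfl⟩ | ⟨z, hz, rfl⟩
      · refine ⟨{a}, fun E hE =>
          ⟨algebraMap Qb (OmG F₀) a, algebraMap_mem_FcG (hE a (by simp)), rfl⟩⟩
      · exact ⟨∅, fun E _ => exists_mem_FcG_of_mem hz⟩
  | one => exact ⟨∅, fun E _ => ⟨1, one_mem _, rfl⟩⟩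
  | add x y _ _ hx hy =>
      obtain ⟨T₁, h₁⟩ := hx
      obtain ⟨T₂, h₂⟩ := hy
      refine ⟨T₁ ∪ T₂, fun E hE => ?_⟩
      obtain ⟨f, hf, hfx⟩ := h₁ E (fun a ha => hE a (Finset.mem_union_left _ ha))
      obtain ⟨g, hg, hgy⟩ := h₂ E (fun a ha => hE a (Finset.mem_union_right _ ha))
      exact ⟨f + g, add_mem hf hg, by rw [← hfx, ← hgy]; rfl⟩
  | neg x _ hx =>
      obtain ⟨T₁, h₁⟩ := hx
      refine ⟨T₁, fun E hE => ?_⟩
      obtain ⟨f, hf, hfx⟩ := h₁ E hE
      exact ⟨-f, neg_mem hf, by rw [← hfx]; rfl⟩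
  | inv x _ hx =>
      obtain ⟨T₁, h₁⟩ := hx
      refine ⟨T₁, fun E hE => ?_⟩
      obtain ⟨f, hf, hfx⟩ := h₁ E hE
      exact ⟨f⁻¹, inv_mem hf, by rw [← hfx]; rfl⟩
  | mul x y _ _ hx hy =>
      obtain ⟨T₁, h₁⟩ := hx
      obtain ⟨T₂, h₂⟩ := hy
      refine ⟨T₁ ∪ T₂, fun E hE => ?_⟩
      obtain ⟨f, hf, hfx⟩ := h₁ E (fun a ha => hE a (Finset.mem_union_left _ ha))
      obtain ⟨g, hg, hgy⟩ := h₂ E (fun a ha => hE a (Finset.mem_union_right _ ha))
      exact ⟨f * g, mul_mem hf hg, by rw [← hfx, ← hgy]; rfl⟩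

variable (F₀) in
/-- **Descent**, elementwise form. -/
theorem exists_finset_mem_FcG (f : OmG F₀) :
    ∃ T : Finset Qb, ∀ E : IntermediateField ℚ Qb, (∀ a ∈ T, a ∈ E) → f ∈ FcG F₀ E := by
  obtain ⟨T, hT⟩ := exists_finset_seriesG F₀ (f : LaurentSeries Qb) f.2
  refine ⟨T, fun E hE => ?_⟩
  obtain ⟨g, hg, hgf⟩ := hT E hE
  have : g = f := Subtype.ext hgf
  exact this ▸ hg

/-! ### `m` is a unit of `A ∩ E` -/

theorem natCast_inv_mem_valuationSubringG {ℓ : ℕ} (hℓ : ℓ.Prime) (A : ValuationSubring Qb)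
    (hA : A.LiesOverPrime ℓ) {m : ℕ} (hm : ¬ ℓ ∣ m) : ((m : Qb))⁻¹ ∈ A := by
  have hcop : IsCoprime (ℓ : ℤ) (m : ℤ) :=
    Nat.isCoprime_iff_coprime.mpr ((Nat.Prime.coprime_iff_not_dvd hℓ).mpr hm)
  obtain ⟨a, b, hab⟩ := hcop
  have habQ : (a : Qb) * (ℓ : Qb) + (b : Qb) * (m : Qb) = 1 := by exact_mod_cast hab
  have hℓv : A.valuation (ℓ : Qb) < 1 := (A.mem_nonunits_iff).mp hA
  have hint : ∀ c : ℤ, A.valuation (c : Qb) ≤ 1 := fun c =>
    (A.valuation_le_one_iff _).mpr (intCast_mem A c)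
  have hmle : A.valuation (m : Qb) ≤ 1 := (A.valuation_le_one_iff _).mpr (natCast_mem A m)
  have hmge : ¬ A.valuation (m : Qb) < 1 := by
    intro hlt
    have h1 : A.valuation ((a : Qb) * (ℓ : Qb)) < 1 := by
      rw [map_mul]
      calc A.valuation (a : Qb) * A.valuation (ℓ : Qb) ≤ 1 * A.valuation (ℓ : Qb) :=
            mul_le_mul' (hint a) le_rfl
        _ = A.valuation (ℓ : Qb) := one_mul _
        _ < 1 := hℓv
    have h2 : A.valuation ((b : Qb) * (m : Qb)) < 1 := by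
      rw [map_mul]
      calc A.valuation (b : Qb) * A.valuation (m : Qb) ≤ 1 * A.valuation (m : Qb) :=
            mul_le_mul' (hint b) le_rfl
        _ = A.valuation (m : Qb) := one_mul _
        _ < 1 := hlt
    have h3 : A.valuation ((a : Qb) * (ℓ : Qb) + (b : Qb) * (m : Qb)) < 1 :=
      Valuation.map_add_lt _ h1 h2
    rw [habQ, map_one] at h3
    exact lt_irrefl _ h3
  have hm1 : A.valuation (m : Qb) = 1 := le_antisymm hmle (not_lt.mp hmge)
  rw [← A.valuation_le_one_iff, map_inv₀, hm1, inv_one]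

theorem mem_RcG_iff {A : ValuationSubring Qb} {y : OmG F₀} :
    y ∈ RcG F₀ A E ↔ ∃ a : Qb, a ∈ A ∧ a ∈ E ∧ algebraMap Qb (OmG F₀) a = y := by
  constructor
  · rintro ⟨a, ⟨haA, haE⟩, rfl⟩
    exact ⟨a, haA, haE, rfl⟩
  · rintro ⟨a, haA, haE, rfl⟩
    exact ⟨a, ⟨haA, haE⟩, rfl⟩

theorem natCast_inv_mem_RcG {ℓ : ℕ} (hℓ : ℓ.Prime) (A : ValuationSubring Qb)
    (hA : A.LiesOverPrime ℓ) {m : ℕ} (hm : ¬ ℓ ∣ m) : ((m : OmG F₀))⁻¹ ∈ RcG F₀ A E := by
  rw [mem_RcG_iff]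
  refine ⟨((m : Qb))⁻¹, natCast_inv_mem_valuationSubringG hℓ A hA hm,
    inv_mem (natCast_mem E m), ?_⟩
  rw [map_inv₀, map_natCast]

/-! ### The divisor hypothesis in valuation-subring form -/

theorem exists_unit_twistG {x₀ : OmG F₀} (hx₀ : Transcendental Qb x₀)
    [FiniteDimensional (IntermediateField.adjoin Qb {x₀}) (OmG F₀)]
    {m : ℕ} {f g : OmG F₀} (hf : f ≠ 0) (hg : g ≠ 0)
    (hdiv : ∀ v : Place Qb (laurentBaseChange Qb F₀), (m : ℤ) ∣ v.ord f - v.ord g)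
    (O : ValuationSubring (OmG F₀)) (hO : ∀ a ∈ LcG F₀, a ∈ O) :
    ∃ t : OmG F₀, t ≠ 0 ∧ (f / g) * t ^ m ∈ O ∧ ((f / g) * t ^ m)⁻¹ ∈ O := by
  by_cases hO' : O = ⊤
  · subst hO'
    exact ⟨1, one_ne_zero, ValuationSubring.mem_top _, ValuationSubring.mem_top _⟩
  obtain ⟨v, hv⟩ := Fermat.Agent.Lib.RR.H443.exists_place_eq O
    (fun a => hO _ ⟨a, rfl⟩) hO' hx₀
  obtain ⟨k, hk⟩ := hdiv v
  obtain ⟨π, hπ⟩ := Fermat.Agent.Lib.RR.exists_ord_eq_one v
  have hπ0 : π ≠ 0 := Fermat.Agent.Lib.RR.ne_zero_of_ord_ne_zero v (by rw [hπ]; exact one_ne_zero)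
  have ht0 : π ^ (-k) ≠ 0 := zpow_ne_zero _ hπ0
  have hfg : f / g ≠ 0 := div_ne_zero hf hg
  have hord : v.ord ((f / g) * (π ^ (-k)) ^ m) = 0 := by
    rw [v.ord_mul hfg (pow_ne_zero _ ht0), div_eq_mul_inv, v.ord_mul hf (inv_ne_zero hg),
      v.ord_inv, Fermat.Agent.Lib.RR.ord_pow, v.ord_zpow, hπ]
    have : v.ord f = v.ord g + m * k := by linarith
    rw [this]
    ring
  refine ⟨π ^ (-k), ht0, ?_, ?_⟩
  · rw [← hv]
    exact Fermat.Agent.Lib.RR.mem_of_ord_nonneg v (by rw [hord])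
  · rw [← hv]
    exact Fermat.Agent.Lib.RR.mem_of_ord_nonneg v (by rw [v.ord_inv, hord, neg_zero])

/-! ### `u ≡ 1` modulo the uniformiser -/

/-- A series over `ℚ̄` with coefficients in `A` comes from a series over `A`. -/
theorem exists_series_of_coeff_memG (A : ValuationSubring Qb) (x : LaurentSeries Qb)
    (hx : ∀ n, x.coeff n ∈ A) : ∃ U : LaurentSeries A, coeffMap A.subtype U = x := by
  refine ⟨⟨fun n => ⟨x.coeff n, hx n⟩, x.isPWO_support.mono ?_⟩, ?_⟩
  · intro n hn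
    rw [HahnSeries.mem_support]
    intro h0
    exact hn (Subtype.ext h0)
  · ext n
    rfl

section Red

variable {A : ValuationSubring Qb}
  {Fk : IntermediateField (ResidueField A) (LaurentSeries (ResidueField A))}

theorem toFG_ne_zero' {U : LaurentSeries A} (hU : IsIntG F₀ A Fk U) : toFG hU ≠ 0 :=
  Fermat.Agent.S48.H136.toFG_ne_zero hU

/-- **`u ≡ 1 mod w`.**  If `U₁, U₂` are integral with the same reduction and `toFG U_i ∈ FcG F₀ E`,
then `(U₁/U₂ - 1)/w` lies in the Gauss valuation ring `VcSetG F₀ A E`, for any `w` generating the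
maximal ideal of `RcG F₀ A E`. -/
theorem sub_one_mul_inv_mem_VcSetG {U₁ U₂ : LaurentSeries A}
    (h₁ : IsIntG F₀ A Fk U₁) (h₂ : IsIntG F₀ A Fk U₂)
    (hred : coeffMap (IsLocalRing.residue A) U₁ = coeffMap (IsLocalRing.residue A) U₂)
    (hf₁ : toFG h₁ ∈ FcG F₀ E) (hf₂ : toFG h₂ ∈ FcG F₀ E)
    {w : OmG F₀} (hw : w ∈ RcG F₀ A E)
    (hgen : ∀ r ∈ RcG F₀ A E, r⁻¹ ∉ RcG F₀ A E → r * w⁻¹ ∈ RcG F₀ A E) :
    (toFG h₁ / toFG h₂ - 1) * w⁻¹ ∈ VcSetG F₀ A E := by
  obtain ⟨w', hw'A, hw'E, rfl⟩ := mem_RcG_iff.mp hw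
  have hg0 : toFG h₂ ≠ 0 := toFG_ne_zero' h₂
  have hwF : algebraMap Qb (OmG F₀) w' ∈ FcG F₀ E := algebraMap_mem_FcG hw'E
  set f : OmG F₀ := (toFG h₁ - toFG h₂) * (algebraMap Qb (OmG F₀) w')⁻¹ with hf
  have hfF : f ∈ FcG F₀ E := mul_mem (sub_mem hf₁ hf₂) (inv_mem hwF)
  have huF : (toFG h₁ / toFG h₂ - 1) * (algebraMap Qb (OmG F₀) w')⁻¹ ∈ FcG F₀ E :=
    mul_mem (sub_mem (div_mem hf₁ hf₂) (one_mem _)) (inv_mem hwF)
  -- coefficients of `f`
  have hcoeff : ∀ n : ℤ, (f : LaurentSeries Qb).coeff n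
      = ((U₁.coeff n : Qb) - (U₂.coeff n : Qb)) * w'⁻¹ := by
    intro n
    have e1 : (f : LaurentSeries Qb) = (coeffMap A.subtype U₁ - coeffMap A.subtype U₂)
        * (algebraMap Qb (LaurentSeries Qb) w')⁻¹ := rfl
    rw [e1, ← map_inv₀, algebraMap_laurentSeries_eq_single, HahnSeries.coeff_mul_single_zero,
      HahnSeries.coeff_sub, coeffMap_coeff, coeffMap_coeff]
    rfl
  have hcoeffE : ∀ (U : LaurentSeries A) (hU : IsIntG F₀ A Fk U), toFG hU ∈ FcG F₀ E →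
      ∀ n : ℤ, ((U.coeff n : A) : Qb) ∈ E := by
    intro U hU hUF n
    have := coeff_mem_of_mem_FcG hUF n
    rwa [Fermat.Agent.S48.H136.coe_toFG, coeffMap_coeff] at this
  have hcoeffA : ∀ n : ℤ, (f : LaurentSeries Qb).coeff n ∈ A := by
    intro n
    rw [hcoeff]
    set d : A := U₁.coeff n - U₂.coeff n with hd
    have hdval : ((U₁.coeff n : Qb) - (U₂.coeff n : Qb)) = (d : Qb) := rfl
    rw [hdval]
    have hdE : (d : Qb) ∈ E := sub_mem (hcoeffE U₁ h₁ hf₁ n) (hcoeffE U₂ h₂ hf₂ n)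
    have hres : IsLocalRing.residue A d = 0 := by
      have := congrArg (fun x => x.coeff n) hred
      simp only [coeffMap_coeff] at this
      rw [hd, map_sub, this, sub_self]
    have hnu : ¬ IsUnit d := by
      rw [IsLocalRing.residue_eq_zero_iff] at hres
      exact (IsLocalRing.mem_maximalIdeal _).mp hres
    by_cases hd0 : (d : Qb) = 0
    · rw [hd0, zero_mul]
      exact A.zero_mem
    have hr : algebraMap Qb (OmG F₀) (d : Qb) ∈ RcG F₀ A E :=
      mem_RcG_iff.mpr ⟨d, d.2, hdE, rfl⟩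
    have hr' : (algebraMap Qb (OmG F₀) (d : Qb))⁻¹ ∉ RcG F₀ A E := by
      intro hmem
      obtain ⟨b, hbA, -, hb⟩ := mem_RcG_iff.mp hmem
      rw [← map_inv₀] at hb
      have hb' : b = (d : Qb)⁻¹ := (algebraMap Qb (OmG F₀)).injective hb
      apply hnu
      refine IsUnit.of_mul_eq_one (⟨b, hbA⟩ : A) (Subtype.ext ?_)
      change (d : Qb) * b = 1
      rw [hb', mul_inv_cancel₀ hd0]
    obtain ⟨c, hcA, -, hc⟩ := mem_RcG_iff.mp (hgen _ hr hr')
    rw [← map_inv₀, ← map_mul] at hc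
    have hc' : c = (d : Qb) * w'⁻¹ := (algebraMap Qb (OmG F₀)).injective hc
    rw [← hc']
    exact hcA
  obtain ⟨W₁, hW₁⟩ := exists_series_of_coeff_memG A (f : LaurentSeries Qb) hcoeffA
  refine ⟨huF, W₁, U₂, ⟨?_, f, hfF, hW₁.symm⟩, ⟨hcoeffE U₂ h₂ hf₂, toFG h₂, hf₂, rfl⟩,
    h₂.2.2, ?_⟩
  · intro n
    have := coeff_mem_of_mem_FcG hfF n
    rwa [← hW₁, coeffMap_coeff] at this
  · rw [hW₁, ← Fermat.Agent.S48.H136.coe_toFG h₂]
    have : (toFG h₁ / toFG h₂ - 1) * (algebraMap Qb (OmG F₀) w')⁻¹ * toFG h₂ = f := by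
      rw [hf]
      field_simp
    rw [← this]
    rfl

/-! ### The glue -/

variable (F₀) in
/-- **MOD deliverable, minimal abstract form**: a good family (S18 `Alg.GoodFamily`, any models)
over `Ω = ℚ̄·F₀` such that for every pair of integral series `U₁, U₂` with the same reduction some
member `(Ec, Fc, R, V, w)` of the family satisfies `m⁻¹ ∈ R`, `u := U₁/U₂ ∈ Fc` and
`(u - 1)/w ∈ V`.  This is all that the glue uses. -/
def HasGoodFamilyMin (A : ValuationSubring Qb)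
    (Fk : IntermediateField (ResidueField A) (LaurentSeries (ResidueField A))) (m : ℕ)
    (x : OmG F₀) (S : Finset (OmG F₀)) : Prop :=
  ∃ 𝓕 : Set (Model (OmG F₀)), GoodFamily (LcG F₀) x S 𝓕 ∧
    ∀ (U₁ U₂ : LaurentSeries A) (h₁ : IsIntG F₀ A Fk U₁) (h₂ : IsIntG F₀ A Fk U₂),
      coeffMap (IsLocalRing.residue A) U₁ = coeffMap (IsLocalRing.residue A) U₂ →
      ∃ p ∈ 𝓕, ((m : OmG F₀))⁻¹ ∈ p.2.2.1 ∧ toFG h₁ / toFG h₂ ∈ p.2.1 ∧
        (toFG h₁ / toFG h₂ - 1) * (p.2.2.2.2)⁻¹ ∈ p.2.2.2.1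

/-- The concrete form of the MOD deliverable implies the minimal abstract one. -/
theorem hasGoodFamilyMin_of_goodFamily {ℓ : ℕ} (hℓ : ℓ.Prime) (hA : A.LiesOverPrime ℓ)
    {m : ℕ} (hm : ¬ ℓ ∣ m) {x : OmG F₀} {S : Finset (OmG F₀)}
    (hmod : HasGoodFamilyG F₀ A x S) : HasGoodFamilyMin F₀ A Fk m x S := by
  classical
  obtain ⟨𝓕, hfam, hT⟩ := hmod
  refine ⟨𝓕, hfam, fun U₁ U₂ h₁ h₂ hred => ?_⟩
  obtain ⟨T₁, hT₁⟩ := exists_finset_mem_FcG F₀ (toFG h₁)
  obtain ⟨T₂, hT₂⟩ := exists_finset_mem_FcG F₀ (toFG h₂)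
  obtain ⟨E, V, w, hTE, hV, hp⟩ := hT (T₁ ∪ T₂)
  have hf₁ : toFG h₁ ∈ FcG F₀ E := hT₁ E (fun a ha => hTE a (Finset.mem_union_left _ ha))
  have hf₂ : toFG h₂ ∈ FcG F₀ E := hT₂ E (fun a ha => hTE a (Finset.mem_union_right _ ha))
  have hgood : GoodModel (LcG F₀) (EcG F₀ E) (FcG F₀ E) (RcG F₀ A E) V w x S := hfam.good _ hp
  refine ⟨_, hp, natCast_inv_mem_RcG hℓ A hA hm, div_mem hf₁ hf₂, ?_⟩
  have h := sub_one_mul_inv_mem_VcSetG h₁ h₂ hred hf₁ hf₂ hgood.w_mem hgood.w_gen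
  rw [← hV] at h
  exact h

/-- **GLUE, generic, abstract form.**  If `Ω = ℚ̄·F₀` is a function field in one variable (`x₀`
transcendental, `Ω` finite over `ℚ̄(x₀)`) and MOD supplies `HasGoodFamilyMin`, then the Kummer core
`CoreG F₀ A Fk m` of helper136's Eichler–Shimura engine holds (`m` prime). -/
theorem coreG_of_min (F₀ : IntermediateField ℚ (LaurentSeries ℚ))
    (A : ValuationSubring Qb)
    (Fk : IntermediateField (ResidueField A) (LaurentSeries (ResidueField A)))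
    (m : ℕ) (hmp : m.Prime)
    {x₀ : OmG F₀} (hx₀ : Transcendental Qb x₀)
    [FiniteDimensional (IntermediateField.adjoin Qb {x₀}) (OmG F₀)]
    (x : OmG F₀) (S : Finset (OmG F₀)) (hmod : HasGoodFamilyMin F₀ A Fk m x S) :
    CoreG F₀ A Fk m := by
  classical
  intro U₁ U₂ h₁ h₂ hred hdiv
  obtain ⟨𝓕, hfam, hT⟩ := hmod
  obtain ⟨p, hp, hmR, huF, huV⟩ := hT U₁ U₂ h₁ h₂ hred
  have hm0 : m ≠ 0 := hmp.ne_zero
  have hu0 : toFG h₁ / toFG h₂ ≠ 0 := div_ne_zero (toFG_ne_zero' h₁) (toFG_ne_zero' h₂)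
  obtain ⟨y, c, hcL, hc0, huy⟩ := Fermat.Agent.S18.H438.algMain (LcG F₀) x S 𝓕 hfam p hp m
    hmp hmR (toFG h₁ / toFG h₂) huF hu0 huV
    (exists_unit_twistG hx₀ (toFG_ne_zero' h₁) (toFG_ne_zero' h₂) hdiv)
  obtain ⟨c', rfl⟩ := hcL
  refine ⟨c', y, ?_, ?_, ?_⟩
  · rintro rfl
    exact hc0 (map_zero _)
  · rintro rfl
    rw [zero_pow hm0, mul_zero] at huy
    exact hu0 huy
  · rw [← huy, div_mul_cancel₀ _ (toFG_ne_zero' h₂)]

/-- **GLUE, generic, concrete form**: from `HasGoodFamilyG` (the exact analogue of the conclusion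
of `S18.Mod.GoodModelStatement`), for every prime `m` different from the residue characteristic
`ℓ` of `A`. -/
theorem coreG_of_goodFamily (F₀ : IntermediateField ℚ (LaurentSeries ℚ)) {ℓ : ℕ} (hℓ : ℓ.Prime)
    (A : ValuationSubring Qb) (hA : A.LiesOverPrime ℓ)
    (Fk : IntermediateField (ResidueField A) (LaurentSeries (ResidueField A)))
    (m : ℕ) (hmp : m.Prime) (hm : ¬ ℓ ∣ m)
    {x₀ : OmG F₀} (hx₀ : Transcendental Qb x₀)
    [FiniteDimensional (IntermediateField.adjoin Qb {x₀}) (OmG F₀)]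
    (x : OmG F₀) (S : Finset (OmG F₀)) (hmod : HasGoodFamilyG F₀ A x S) :
    CoreG F₀ A Fk m :=
  coreG_of_min F₀ A Fk m hmp hx₀ x S (hasGoodFamilyMin_of_goodFamily hℓ hA hm hmod)

end Red

/-! ### D2, generic: transfer of the Kummer core along a finite extension of degree prime to `m` -/

section D2

open IntermediateField Module

section Generic

variable {K Ω : Type*} [Field K] [Field Ω] [Algebra K Ω] {E F : IntermediateField K Ω}

/-- `extendScalars h` and `F` (with the `E`-algebra structure along the inclusion) are the same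
`E`-vector space. -/
def extendScalarsLinearEquiv908 (hEF : E ≤ F) :
    letI := (IntermediateField.inclusion hEF).toRingHom.toAlgebra
    ↥(extendScalars hEF) ≃ₗ[E] F :=
  letI := (IntermediateField.inclusion hEF).toRingHom.toAlgebra
  { toFun := fun x => ⟨x.1, (mem_extendScalars hEF).mp x.2⟩
    invFun := fun x => ⟨x.1, (mem_extendScalars hEF).mpr x.2⟩
    map_add' := fun _ _ => rfl
    map_smul' := fun _ _ => rfl
    left_inv := fun _ => rfl
    right_inv := fun _ => rfl }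

theorem finrank_inclusion_eq_relfinrank908 (hEF : E ≤ F) :
    letI := (IntermediateField.inclusion hEF).toRingHom.toAlgebra
    finrank E F = E.relfinrank F := by
  letI := (IntermediateField.inclusion hEF).toRingHom.toAlgebra
  rw [relfinrank_eq_finrank_of_le hEF]
  exact (extendScalarsLinearEquiv908 hEF).finrank_eq.symm

theorem finiteDimensional_inclusion908 (hEF : E ≤ F) (h0 : E.relfinrank F ≠ 0) :
    letI := (IntermediateField.inclusion hEF).toRingHom.toAlgebra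
    FiniteDimensional E F := by
  letI := (IntermediateField.inclusion hEF).toRingHom.toAlgebra
  apply FiniteDimensional.of_finrank_pos
  rw [finrank_inclusion_eq_relfinrank908 hEF]
  exact Nat.pos_of_ne_zero h0

/-- Norm trick along an inclusion of intermediate fields (instance-free statement). -/
theorem exists_pow_of_inclusion908 (hEF : E ≤ F) (m : ℕ) (hd0 : E.relfinrank F ≠ 0)
    (hcop : Nat.Coprime (E.relfinrank F) m) (u : E) (hu : u ≠ 0) (c : K) (hc : c ≠ 0)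
    (y : F) (hy : y ≠ 0)
    (h : IntermediateField.inclusion hEF u = algebraMap K F c * y ^ m) :
    ∃ (c' : K) (y' : E), c' ≠ 0 ∧ y' ≠ 0 ∧ u = algebraMap K E c' * y' ^ m := by
  letI : Algebra E F := (IntermediateField.inclusion hEF).toRingHom.toAlgebra
  haveI : IsScalarTower K E F := IsScalarTower.of_algebraMap_eq fun _ => rfl
  haveI hfd : FiniteDimensional E F := finiteDimensional_inclusion908 hEF hd0
  have hfr : finrank E F = E.relfinrank F := finrank_inclusion_eq_relfinrank908 hEF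
  exact Fermat.Agent.S18.H568.exists_pow_of_norm_coprime m (by rw [hfr]; exact hcop)
    u hu c hc y hy h

theorem isIntegral_inclusion908 (hEF : E ≤ F) (hd0 : E.relfinrank F ≠ 0) :
    (IntermediateField.inclusion hEF).toRingHom.IsIntegral := by
  letI : Algebra E F := (IntermediateField.inclusion hEF).toRingHom.toAlgebra
  haveI hfd : FiniteDimensional E F := finiteDimensional_inclusion908 hEF hd0
  exact fun x => (Algebra.IsIntegral.of_finite E F).isIntegral x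

end Generic

/-- Monotonicity of `ℚ̄ · F₀` in `F₀`. -/
theorem lbc_mono908 {F₀ F₀' : IntermediateField ℚ (LaurentSeries ℚ)} (h : F₀ ≤ F₀') :
    laurentBaseChange Qb F₀ ≤ laurentBaseChange Qb F₀' := by
  rw [laurentBaseChange, IntermediateField.adjoin_le_iff]
  rintro x ⟨y, hy, rfl⟩
  exact coeffEmb_mem_laurentBaseChange Qb (h hy)

theorem isIntG_of_le {F₀ F₀' : IntermediateField ℚ (LaurentSeries ℚ)} (hle : F₀ ≤ F₀')
    {A : ValuationSubring Qb}
    {Fk Fk' : IntermediateField (ResidueField A) (LaurentSeries (ResidueField A))}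
    (hk : Fk ≤ Fk') {U : LaurentSeries A} (hU : IsIntG F₀ A Fk U) : IsIntG F₀' A Fk' U :=
  ⟨lbc_mono908 hle hU.1, hk hU.2.1, hU.2.2⟩

/-- `CoreG` is antitone in the reduction field `Fk` (the largest choice `Fk = ⊤` gives the
strongest statement). -/
theorem coreG_mono_Fk {F₀ : IntermediateField ℚ (LaurentSeries ℚ)} {A : ValuationSubring Qb}
    {Fk Fk' : IntermediateField (ResidueField A) (LaurentSeries (ResidueField A))}
    (hk : Fk ≤ Fk') {m : ℕ} (h : CoreG F₀ A Fk' m) : CoreG F₀ A Fk m := by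
  intro U₁ U₂ h₁ h₂ hred hord
  exact h U₁ U₂ (isIntG_of_le le_rfl hk h₁) (isIntG_of_le le_rfl hk h₂) hred hord

/-- `CoreG` for `Fk = ⊤` implies `CoreG` for every `Fk`. -/
theorem coreG_of_top {F₀ : IntermediateField ℚ (LaurentSeries ℚ)} {A : ValuationSubring Qb}
    (Fk : IntermediateField (ResidueField A) (LaurentSeries (ResidueField A)))
    {m : ℕ} (h : CoreG F₀ A ⊤ m) : CoreG F₀ A Fk m :=
  coreG_mono_Fk le_top h

/-- **D2, generic.**  `CoreG` descends along `F₀ ≤ F₀'` when `[ℚ̄F₀' : ℚ̄F₀]` is finite and prime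
to `m` (norm trick).  For `p = 2, 3` this replaces the pull-back to an auxiliary level. -/
theorem coreG_of_le {F₀ F₀' : IntermediateField ℚ (LaurentSeries ℚ)} (hle : F₀ ≤ F₀')
    (A : ValuationSubring Qb)
    {Fk Fk' : IntermediateField (ResidueField A) (LaurentSeries (ResidueField A))}
    (hk : Fk ≤ Fk') (m : ℕ)
    (hd0 : (laurentBaseChange Qb F₀).relfinrank (laurentBaseChange Qb F₀') ≠ 0)
    (hcop : Nat.Coprime ((laurentBaseChange Qb F₀).relfinrank (laurentBaseChange Qb F₀')) m) :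
    CoreG F₀' A Fk' m → CoreG F₀ A Fk m := by
  intro hM U₁ U₂ h₁ h₂ hred hord
  have hle' := lbc_mono908 hle
  set φ : laurentBaseChange Qb F₀ →ₐ[Qb] laurentBaseChange Qb F₀' :=
    IntermediateField.inclusion hle' with hφdef
  have hφint : φ.toRingHom.IsIntegral := isIntegral_inclusion908 hle' hd0
  have h₁' : IsIntG F₀' A Fk' U₁ := isIntG_of_le hle hk h₁
  have h₂' : IsIntG F₀' A Fk' U₂ := isIntG_of_le hle hk h₂
  have e₁ : toFG h₁' = φ (toFG h₁) := rfl
  have e₂ : toFG h₂' = φ (toFG h₂) := rfl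
  obtain ⟨c, y, hc, hy, hcy⟩ := hM U₁ U₂ h₁' h₂' hred (fun w => by
    rw [e₁, e₂, Place.ord_restrictAlong φ hφint w, Place.ord_restrictAlong φ hφint w, ← mul_sub]
    exact Dvd.dvd.mul_left (hord _) _)
  have hn₁ := toFG_ne_zero' h₁
  have hn₂ := toFG_ne_zero' h₂
  have hu : toFG h₁ / toFG h₂ ≠ 0 := div_ne_zero hn₁ hn₂
  have hkey : φ (toFG h₁ / toFG h₂) = algebraMap Qb (laurentBaseChange Qb F₀') c * y ^ m := by
    have hn₂' : toFG h₂' ≠ 0 := toFG_ne_zero' h₂'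
    rw [map_div₀, ← e₁, ← e₂, hcy, mul_div_assoc, div_self hn₂', mul_one]
  obtain ⟨c', y', hc', hy', hfin⟩ :=
    exists_pow_of_inclusion908 hle' m hd0 hcop (toFG h₁ / toFG h₂) hu c hc y hy hkey
  refine ⟨c', y', hc', hy', ?_⟩
  rw [← hfin, div_mul_cancel₀ _ hn₂]

end D2

end Fermat.Agent.S48.H908.Core1
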