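import Fermat.Agent.S48.H908.Neb
import Fermat.Prelude.Def_FLTPrelim_Modularity

/-!
# S48 / P1b (helper908): Galois conjugates of weight one cusp forms with nebentypus
-/

set_option autoImplicit false
set_option linter.unusedSectionVars false

namespace Fermat.Agent.S48.H908

open ModularForm CongruenceSubgroup MatrixGroups Complex Matrix Filter Topology
open scoped Real Nat Manifold
open UpperHalfPlane hiding I
open Fermat.Agent.S23.Cap (G0 IsCF IsMF qx)
open Fermat.Agent.S23.Conv (IsNice)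

variable {N : ℕ} [NeZero N]

/-! ### The conjugate form -/

theorem inv_neg_one_of_odd (ε : DirichletCharacter ℂ N) (hε : ε (-1) = -1) :
    (ε⁻¹) (-1) = -1 := by
  rw [MulChar.inv_apply_eq_inv', hε]
  norm_num

/-- the exponent killing all Dirichlet characters mod `N` -/
noncomputable def expN (N : ℕ) [NeZero N] : ℕ := Fintype.card (ZMod N)ˣ

theorem expN_pos : 0 < expN N := Fintype.card_pos

theorem pow_expN (χ : DirichletCharacter ℂ N) : χ ^ expN N = 1 := by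
  ext u
  rw [MulChar.pow_apply_coe, ← map_pow, ← Units.val_pow_eq_pow_val, expN, pow_card_eq_one,
    Units.val_one, map_one, MulChar.one_apply_coe]

/-- `f · E_{ε⁻¹}` is a cusp form of weight 4 on `Γ₀(N)`. -/
theorem isCF_mul_eis (ε : DirichletCharacter ℂ N) (f : CuspForm (Gamma1 N) 1)
    (hneb : HasNeb N 1 ε f) : IsCF (G0 N) 4 ((f : ℍ → ℂ) * eisCharFun ε⁻¹) := by
  have hE : HasNeb N 3 ε⁻¹ (eisCharFun ε⁻¹) := fun γ hγ => eisCharFun_slash _ γ hγ
  have h1 : HasNeb N (1 + 3) (ε * ε⁻¹) ((f : ℍ → ℂ) * eisCharFun ε⁻¹) := hneb.mul hE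
  rw [mul_inv_cancel] at h1
  refine isCF_G0_of (f.holo'.mul (eisCharFun_mdiff _)) (fun γ hγ => h1.invariant γ hγ) ?_
  intro γ
  rw [show (4 : ℤ) = 1 + 3 from rfl, ModularForm.mul_slash_SL2]
  exact (isZeroAtImInfty_slash_of_cuspForm f γ).mul_boundedAtFilter
    (eisCharFun_isBoundedAtImInfty_slash _ γ)

/-- `f ^ m` is a cusp form of weight `m` on `Γ₀(N)`. -/
theorem isCF_pow (ε : DirichletCharacter ℂ N) (f : CuspForm (Gamma1 N) 1)
    (hneb : HasNeb N 1 ε f) : IsCF (G0 N) (expN N) ((f : ℍ → ℂ) ^ expN N) := by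
  have h1 : HasNeb N ((expN N : ℤ) * 1) (ε ^ expN N) ((f : ℍ → ℂ) ^ expN N) := hneb.pow _
  rw [pow_expN, mul_one] at h1
  refine isCF_G0_of (f.holo'.pow _) (fun γ hγ => h1.invariant γ hγ) ?_
  intro γ
  have := pow_slash_SL2 1 (expN N) γ (f : ℍ → ℂ)
  rw [mul_one] at this
  rw [this]
  exact isZeroAtImInfty_pow (isZeroAtImInfty_slash_of_cuspForm f γ) expN_pos


theorem ringHomComp_inv (ε : DirichletCharacter ℂ N) (σ : ℂ →+* ℂ) :
    (ε⁻¹).ringHomComp σ = (ε.ringHomComp σ)⁻¹ := by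
  ext u
  rw [MulChar.ringHomComp_apply, MulChar.inv_apply_eq_inv', MulChar.inv_apply_eq_inv',
    MulChar.ringHomComp_apply, map_inv₀]

/-- **Galois conjugates of weight one forms with nebentypus.** -/
theorem exists_conj (ε : DirichletCharacter ℂ N) (hε : ε (-1) = -1)
    (f : CuspForm (Gamma1 N) 1) (hneb : HasNeb N 1 ε f) (σ : ℂ →+* ℂ) :
    ∃ g : CuspForm (Gamma1 N) 1, qExpansion 1 g = (qExpansion 1 f).map σ ∧
      HasNeb N 1 (ε.ringHomComp σ) g := by
  classical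
  set m := expN N with hm
  have hmpos : 0 < m := expN_pos
  set ε' := ε.ringHomComp σ with hε'
  have hψ : (ε⁻¹) (-1) = -1 := inv_neg_one_of_odd ε hε
  have hψ' : (ε'⁻¹) (-1) = -1 := inv_neg_one_of_odd ε' (ringHomComp_neg_one ε hε σ)
  set E := eisCharFun ε⁻¹ with hE
  set E' := eisCharFun ε'⁻¹ with hE'
  have hEN : IsNice E := isNice_eisCharFun _
  have hE'N : IsNice E' := isNice_eisCharFun _
  have hfN : IsNice (f : ℍ → ℂ) := isNice_cuspForm_G1 f
  have hEσ : (qExpansion 1 E).map σ = qExpansion 1 E' := by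
    rw [hE, qExpansion_eisCharFun_map _ hψ σ, ringHomComp_inv]
  have hE'0 : E' ≠ 0 := eisCharFun_ne_zero _ hψ'
  have hE'q : qExpansion 1 E' ≠ 0 := fun h => hE'0 (hE'N.qExpansion_eq_zero_iff.mp h)
  -- the two auxiliary `Γ₀(N)` forms and their conjugates
  have h4 := isCF_mul_eis ε f hneb
  have hp := isCF_pow ε f hneb
  obtain ⟨g4, hg4, hg4q⟩ := Fermat.Agent.S23.Cap.galois_stable N 4 σ _ h4
  obtain ⟨gm, hgm, hgmq⟩ := Fermat.Agent.S23.Cap.galois_stable N (expN N) σ _ hp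
  have hg4N : IsNice g4 := IsCF.isNice hg4
  have hgmN : IsNice gm := IsCF.isNice hgm
  have hq4 : qExpansion 1 g4 = (qExpansion 1 f).map σ * qExpansion 1 E' := by
    rw [show qExpansion 1 g4 = qx g4 from rfl, hg4q, ← hEσ, ← map_mul]
    congr 1
    exact IsNice.qExpansion_mul hfN hEN
  have hqm : qExpansion 1 gm = ((qExpansion 1 f).map σ) ^ m := by
    rw [show qExpansion 1 gm = qx gm from rfl, hgmq, ← map_pow]
    congr 1
    exact IsNice.qExpansion_pow hfN _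
  -- the key identity `g4 ^ m = gm * E' ^ m`
  have hkey : g4 ^ m = gm * E' ^ m := by
    refine IsNice.eq_of_qExpansion_eq (hg4N.pow m) (hgmN.mul (hE'N.pow m)) ?_
    rw [IsNice.qExpansion_pow hg4N, IsNice.qExpansion_mul hgmN (hE'N.pow m),
      IsNice.qExpansion_pow hE'N, hq4, hqm, mul_pow]
  -- the quotient
  have heq : ∀ τ, g4 τ ^ m + ∑ i ∈ Finset.Icc 1 m,
      (fun i => if i = m then -gm else 0) i τ * g4 τ ^ (m - i) * E' τ ^ i = 0 := by
    intro τ
    rw [Finset.sum_eq_single m]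
    · have := congrFun hkey τ
      simp only [Pi.pow_apply, Pi.mul_apply] at this
      simp [this]
    · intro i _ hi
      simp [hi]
    · intro h
      exact absurd (Finset.mem_Icc.mpr ⟨hmpos, le_rfl⟩) h
  have heM : ∀ i ∈ Finset.Icc 1 m, MDiff ((fun i => if i = m then -gm else 0) i) := by
    intro i _
    by_cases hi : i = m
    · simp only [hi, if_true]
      exact (IsCF.mdiff hgm).neg
    · simp only [hi, if_false]
      exact mdifferentiable_const
  obtain ⟨hFd, hFE, hFm⟩ := Fermat.Agent.S23.H908.quotFun_spec (g := g4) (h := E')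
    (IsCF.mdiff hg4) hE'N.1 hE'0 heM heq
  set F := Fermat.Agent.S23.H908.quotFun g4 E' with hF
  have hFpow : F ^ m = gm := by
    funext τ
    have := hFm τ
    rw [Finset.sum_eq_single m] at this
    · simp only [if_true, Pi.neg_apply, Nat.sub_self, pow_zero, mul_one] at this
      simp only [Pi.pow_apply]
      exact eq_of_add_neg_eq_zero this
    · intro i _ hi
      simp [hi]
    · intro h
      exact absurd (Finset.mem_Icc.mpr ⟨hmpos, le_rfl⟩) h
  have hFE' : F * E' = g4 := funext hFE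
  -- nebentypus
  have hnebF : HasNeb N 1 ε' F := by
    intro γ hγ
    have hu := isUnit_of_mem_Gamma0 hγ
    have h1 : (F ∣[(1:ℤ)] γ) * (E' ∣[(3:ℤ)] γ) = F * E' := by
      rw [← ModularForm.mul_slash_SL2, hFE']
      exact IsCF.invariant hg4 γ hγ
    rw [eisCharFun_slash _ γ hγ] at h1
    have hc : ε' ((γ 1 1 : ℤ) : ZMod N) * (ε'⁻¹) ((γ 1 1 : ℤ) : ZMod N) = 1 := by
      rw [← MulChar.mul_apply, mul_inv_cancel, MulChar.one_apply hu]
    have hc0 : (ε'⁻¹) ((γ 1 1 : ℤ) : ZMod N) ≠ 0 := right_ne_zero_of_mul_eq_one hc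
    have h2 : ((ε'⁻¹) ((γ 1 1 : ℤ) : ZMod N) • (F ∣[(1:ℤ)] γ) - F) * E' = 0 := by
      rw [sub_mul, ← h1]
      ext z
      simp only [Pi.sub_apply, Pi.mul_apply, Pi.smul_apply, smul_eq_mul, Pi.zero_apply]
      ring
    have hd : MDiff ((ε'⁻¹) ((γ 1 1 : ℤ) : ZMod N) • (F ∣[(1:ℤ)] γ) - F) :=
      ((hFd.slash 1 _).const_smul _).sub hFd
    rcases (UpperHalfPlane.mul_eq_zero_iff hd hE'N.1).mp h2 with h3 | h3
    · have h4 : (ε'⁻¹) ((γ 1 1 : ℤ) : ZMod N) • (F ∣[(1:ℤ)] γ) = F := sub_eq_zero.mp h3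
      calc F ∣[(1:ℤ)] γ
          = (ε' ((γ 1 1 : ℤ) : ZMod N) * (ε'⁻¹) ((γ 1 1 : ℤ) : ZMod N)) • (F ∣[(1:ℤ)] γ) := by
            rw [hc, one_smul]
        _ = ε' ((γ 1 1 : ℤ) : ZMod N) • ((ε'⁻¹) ((γ 1 1 : ℤ) : ZMod N) • (F ∣[(1:ℤ)] γ)) := by
            rw [smul_smul]
        _ = ε' ((γ 1 1 : ℤ) : ZMod N) • F := by rw [h4]
    · exact absurd h3 hE'0
  -- cusps
  have hz : ∀ γ : SL(2, ℤ), IsZeroAtImInfty (F ∣[(1:ℤ)] γ) := by
    intro γ
    refine isZeroAtImInfty_of_pow (n := m) (IsCF.isZeroAtImInfty_slash hgm γ) ?_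
    have := pow_slash_SL2 1 m γ F
    rw [mul_one] at this
    rw [← this, hFpow]
  have hinv : ∀ γ : SL(2, ℤ), γ ∈ Gamma1 N → F ∣[(1:ℤ)] γ = F := by
    intro γ hγ
    have h11 : ((γ 1 1 : ℤ) : ZMod N) = 1 := ((Gamma1_mem N γ).mp hγ).2.1
    rw [hnebF γ (Gamma1_in_Gamma0 N hγ), h11, map_one, one_smul]
  obtain ⟨g, hg⟩ := exists_cuspForm_G1_of hFd hinv hz
  refine ⟨g, ?_, ?_⟩
  · have hFN : IsNice F := by rw [← hg]; exact isNice_cuspForm_G1 g
    have h1 : qExpansion 1 F * qExpansion 1 E' = (qExpansion 1 f).map σ * qExpansion 1 E' := by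
      rw [← IsNice.qExpansion_mul hFN hE'N, hFE', hq4]
    rw [hg]
    exact mul_right_cancel₀ hE'q h1
  · rw [hg]
    exact hnebF

theorem slash_neg_one_SL2 (k : ℤ) (hk : Odd k) (f : ℍ → ℂ) :
    f ∣[k] (-1 : SL(2, ℤ)) = -f := by
  ext z
  rw [ModularForm.SL_slash_apply]
  have h1 : ((-1 : SL(2, ℤ)) • z) = z := by
    ext
    simp
  have h2 : denom (Matrix.SpecialLinearGroup.toGL
      ((Matrix.SpecialLinearGroup.map (Int.castRingHom ℝ)) (-1 : SL(2, ℤ)))) z = -1 := by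
    simp [denom]
  rw [h1, h2, Odd.neg_zpow (by simpa using hk.neg : Odd (-k)), _root_.one_zpow]
  simp

/-- A nonzero weight one form with nebentypus `ε` forces `ε` to be odd. -/
theorem odd_of_hasNeb (ε : DirichletCharacter ℂ N) {f : ℍ → ℂ} (hf : f ≠ 0)
    (hneb : HasNeb N 1 ε f) : ε (-1) = -1 := by
  have hmem : (-1 : SL(2, ℤ)) ∈ Gamma0 N := by
    rw [Gamma0_mem]
    simp
  have h1 := hneb (-1) hmem
  rw [slash_neg_one_SL2 1 odd_one f] at h1
  have h11 : (((-1 : SL(2, ℤ)) 1 1 : ℤ) : ZMod N) = -1 := by simp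
  rw [h11] at h1
  obtain ⟨z, hz⟩ := Function.ne_iff.mp hf
  have h2 := congrFun h1 z
  simp only [Pi.neg_apply, Pi.smul_apply, smul_eq_mul, Pi.zero_apply] at h2 hz
  have h3 : (ε (-1) + 1) * f z = 0 := by rw [add_mul, ← h2]; ring
  rcases mul_eq_zero.mp h3 with h | h
  · exact eq_neg_of_add_eq_zero_left h
  · exact absurd h hz


open ModularFormClass in
/-- **P1 (a), in the shape of the S48 hypotheses**: for every ring endomorphism `σ` of `ℂ` the
conjugate `q`-expansion is again the `q`-expansion of a weight one cusp form on `Γ₁(N)`, with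
nebentypus `σ ∘ ε`, satisfying the S48 hypotheses for `σ ∘ ε`. -/
theorem exists_conj_S48 (ε : DirichletCharacter ℂ N) (f : CuspForm (Gamma1 N) 1)
    (hf₁ : qCoeff f 1 = 1)
    (hT : ∀ p : ℕ, p.Prime → ¬ p ∣ N → ∀ n : ℕ,
        qCoeff f (p * n) + ε (p : ZMod N) * (if p ∣ n then qCoeff f (n / p) else 0) =
          qCoeff f p * qCoeff f n)
    (hneb : ∀ γ : SL(2, ℤ), γ ∈ Gamma0 N →
      (⇑f) ∣[(1:ℤ)] γ = ε ((γ 1 1 : ℤ) : ZMod N) • ⇑f)
    (σ : ℂ →+* ℂ) :
    ∃ g : CuspForm (Gamma1 N) 1,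
      (∀ n, qCoeff g n = σ (qCoeff f n)) ∧
      (∀ γ : SL(2, ℤ), γ ∈ Gamma0 N →
        (⇑g) ∣[(1:ℤ)] γ = (ε.ringHomComp σ) ((γ 1 1 : ℤ) : ZMod N) • ⇑g) ∧
      qCoeff g 1 = 1 ∧
      (∀ p : ℕ, p.Prime → ¬ p ∣ N → ∀ n : ℕ,
        qCoeff g (p * n) +
            (ε.ringHomComp σ) (p : ZMod N) * (if p ∣ n then qCoeff g (n / p) else 0) =
          qCoeff g p * qCoeff g n) := by
  have hf0 : (f : ℍ → ℂ) ≠ 0 := by
    intro h
    have : qCoeff f 1 = 0 := by
      simp only [qCoeff, h, qExpansion_zero, map_zero]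
    rw [hf₁] at this
    exact one_ne_zero this
  have hε : ε (-1) = -1 := odd_of_hasNeb ε hf0 hneb
  obtain ⟨g, hgq, hgneb⟩ := exists_conj ε hε f hneb σ
  have hq : ∀ n, qCoeff g n = σ (qCoeff f n) := by
    intro n
    simp only [qCoeff, hgq, PowerSeries.coeff_map]
  refine ⟨g, hq, hgneb, ?_, ?_⟩
  · rw [hq, hf₁, map_one]
  · intro p hp hpN n
    have h := congrArg σ (hT p hp hpN n)
    rw [map_add, map_mul, map_mul] at h
    simp only [hq, MulChar.ringHomComp_apply]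
    rw [← h]
    congr 2
    split_ifs
    · rfl
    · rw [map_zero]

end Fermat.Agent.S48.H908
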