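import Mathlib

/-!
# S48 / P1a (helper908): weight 3 Eisenstein series with an odd Dirichlet character

For a Dirichlet character `ψ` mod `N` we put
`eisG ψ = ∑_{a : (ZMod N)²} ψ (a 0) • E_a` (`E_a` Mathlib's level `Γ(N)` Eisenstein series of
weight `3`).  On `Γ₀(N)` it transforms by `ψ (γ 1 1)` (`eisG_slash`); for odd `ψ` the scalar
multiple `eisChar ψ` has `q`-expansion `∑_{n ≥ 1} (∑_{d e = n} ψ d · e²) qⁿ`
(`qExpansion_eisChar`).
-/

set_option autoImplicit false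
set_option linter.unusedSectionVars false

namespace Fermat.Agent.S48.H908

open ModularForm EisensteinSeries CongruenceSubgroup MatrixGroups Complex Matrix
open scoped Real Nat Manifold
open UpperHalfPlane hiding I

variable {N : ℕ} [NeZero N]

/-! ### The function and its transformation behaviour -/

/-- The function `∑ₐ ψ(a₀) E_a` of weight 3. -/
noncomputable def eisG (ψ : DirichletCharacter ℂ N) : ℍ → ℂ :=
  ∑ a : Fin 2 → ZMod N, ψ (a 0) • eisensteinSeries a 3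

/-- right multiplication by (the reduction of) `γ` on `(ZMod N)²` -/
def vecMulRed (γ : SL(2, ℤ)) (a : Fin 2 → ZMod N) : Fin 2 → ZMod N :=
  a ᵥ* ((γ : Matrix (Fin 2) (Fin 2) ℤ).map (Int.castRingHom (ZMod N)))

theorem vecMulRed_eq (γ : SL(2, ℤ)) (a : Fin 2 → ZMod N) : a ᵥ* γ = vecMulRed γ a := by
  simp [vecMulRed]

theorem vecMulRed_mul (γ δ : SL(2, ℤ)) (a : Fin 2 → ZMod N) :
    vecMulRed δ (vecMulRed γ a) = vecMulRed (γ * δ) a := by
  unfold vecMulRed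
  rw [vecMul_vecMul, Matrix.SpecialLinearGroup.coe_mul, Matrix.map_mul]

theorem vecMulRed_one (a : Fin 2 → ZMod N) : vecMulRed 1 a = a := by
  unfold vecMulRed
  rw [Matrix.SpecialLinearGroup.coe_one, Matrix.map_one _ (map_zero _) (map_one _), vecMul_one]

/-- right multiplication by (the reduction of) `γ` on `(ZMod N)²`, as an equivalence -/
def vecMulEquiv (γ : SL(2, ℤ)) : (Fin 2 → ZMod N) ≃ (Fin 2 → ZMod N) where
  toFun := vecMulRed γ
  invFun := vecMulRed γ⁻¹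
  left_inv a := by rw [vecMulRed_mul, mul_inv_cancel, vecMulRed_one]
  right_inv a := by rw [vecMulRed_mul, inv_mul_cancel, vecMulRed_one]

theorem vecMulEquiv_symm_apply_zero (γ : SL(2, ℤ)) (hγ : γ ∈ Gamma0 N) (b : Fin 2 → ZMod N) :
    ((vecMulEquiv γ).symm b) 0 = b 0 * ((γ 1 1 : ℤ) : ZMod N) := by
  have h10 : ((γ 1 0 : ℤ) : ZMod N) = 0 := Gamma0_mem.mp hγ
  show vecMulRed γ⁻¹ b 0 = _
  simp [vecMulRed, vecMul, dotProduct, Fin.sum_univ_two, adjugate_fin_two, h10]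

/-- **Nebentypus of the Eisenstein series.** -/
theorem eisG_slash (ψ : DirichletCharacter ℂ N) (γ : SL(2, ℤ)) (hγ : γ ∈ Gamma0 N) :
    (eisG ψ) ∣[(3:ℤ)] γ = ψ ((γ 1 1 : ℤ) : ZMod N) • eisG ψ := by
  unfold eisG
  rw [SlashAction.sum_slash]
  simp_rw [ModularForm.SL_smul_slash, eisensteinSeries_slash_apply, vecMulRed_eq]
  rw [← (vecMulEquiv (N := N) γ).symm.sum_comp, Finset.smul_sum]
  refine Finset.sum_congr rfl fun b _ => ?_
  rw [vecMulEquiv_symm_apply_zero γ hγ, map_mul, mul_comm, mul_smul]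
  congr 2
  exact congrArg (fun a => eisensteinSeries a 3) ((vecMulEquiv γ).apply_symm_apply b)

/-- The level `Γ(N)` modular form `∑ₐ ψ(a₀) E_a` of weight 3. -/
noncomputable def eisGMF (ψ : DirichletCharacter ℂ N) : ModularForm Γ(N) 3 :=
  ∑ a : Fin 2 → ZMod N, ψ (a 0) • eisensteinSeriesMF (k := 3) (by norm_num) a

theorem eisGMF_coe (ψ : DirichletCharacter ℂ N) : (eisGMF ψ : ℍ → ℂ) = eisG ψ := by
  unfold eisGMF eisG
  have : ∀ (s : Finset (Fin 2 → ZMod N)),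
      ((∑ a ∈ s, ψ (a 0) • eisensteinSeriesMF (k := 3) (by norm_num) a :
        ModularForm Γ(N) 3) : ℍ → ℂ) = ∑ a ∈ s, ψ (a 0) • eisensteinSeries a 3 := by
    intro s
    induction s using Finset.induction_on with
    | empty => simp
    | insert a s ha ih =>
      rw [Finset.sum_insert ha, Finset.sum_insert ha, FunLike.coe_add, ih]
      rfl
  exact this _

/-! ### Sums over lattice vectors -/

/-- the twisted summand -/
noncomputable def eisT (ψ : DirichletCharacter ℂ N) (z : ℍ) (v : Fin 2 → ℤ) : ℂ :=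
  ψ ((v 0 : ℤ) : ZMod N) * eisSummand 3 v z

theorem norm_eisT_le (ψ : DirichletCharacter ℂ N) (z : ℍ) (v : Fin 2 → ℤ) :
    ‖eisT ψ z v‖ ≤ ‖eisSummand 3 v z‖ := by
  unfold eisT
  rw [norm_mul]
  exact mul_le_of_le_one_left (norm_nonneg _) (DirichletCharacter.norm_le_one ψ _)

theorem summable_norm_eisT (ψ : DirichletCharacter ℂ N) (z : ℍ) :
    Summable fun v : Fin 2 → ℤ => ‖eisT ψ z v‖ :=
  Summable.of_nonneg_of_le (fun _ => norm_nonneg _) (norm_eisT_le ψ z)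
    (summable_norm_eisSummand (k := 3) le_rfl z)

theorem summable_eisT (ψ : DirichletCharacter ℂ N) (z : ℍ) :
    Summable (eisT ψ z) := (summable_norm_eisT ψ z).of_norm

/-- `eisG` as a sum over coprime pairs. -/
theorem eisG_eq_tsum_coprime (ψ : DirichletCharacter ℂ N) (z : ℍ) :
    eisG ψ z = ∑' v : gammaSet 1 1 0, eisT ψ z v := by
  classical
  have h1 : ∀ a : Fin 2 → ZMod N, ψ (a 0) * eisensteinSeries a 3 z
      = ∑' v : Fin 2 → ℤ, (gammaSet N 1 a).indicator (eisT ψ z) v := by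
    intro a
    rw [eisensteinSeries, ← tsum_mul_left, ← tsum_subtype (gammaSet N 1 a) (eisT ψ z)]
    refine tsum_congr fun v => ?_
    have hv : ((v.1 0 : ℤ) : ZMod N) = a 0 := congrFun v.2.1 0
    simp only [eisT, hv]
  have h2 : ∀ a : Fin 2 → ZMod N, Summable ((gammaSet N 1 a).indicator (eisT ψ z)) :=
    fun a => (summable_eisT ψ z).indicator _
  rw [tsum_subtype (gammaSet 1 1 0) (eisT ψ z)]
  have h3 : eisG ψ z = ∑ a : Fin 2 → ZMod N, ψ (a 0) * eisensteinSeries a 3 z := by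
    simp [eisG, Finset.sum_apply]
  rw [h3, Finset.sum_congr rfl fun a _ => h1 a, ← Summable.tsum_finsetSum fun a _ => h2 a]
  refine tsum_congr fun v => ?_
  rw [Finset.sum_eq_single (fun i => ((v i : ℤ) : ZMod N))]
  · by_cases hv : v ∈ gammaSet 1 1 0
    · have hv' : v ∈ gammaSet N 1 (fun i => ((v i : ℤ) : ZMod N)) := ⟨rfl, hv.2⟩
      rw [Set.indicator_of_mem hv, Set.indicator_of_mem hv']
    · have hv' : v ∉ gammaSet N 1 (fun i => ((v i : ℤ) : ZMod N)) := fun h =>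
        hv ⟨Subsingleton.elim _ _, h.2⟩
      rw [Set.indicator_of_notMem hv, Set.indicator_of_notMem hv']
  · intro b _ hb
    apply Set.indicator_of_notMem
    intro h
    exact hb h.1.symm
  · intro h
    exact absurd (Finset.mem_univ _) h

/-- the Dirichlet `L`-value `L(3, ψ)` as a sum -/
noncomputable def LChar (ψ : DirichletCharacter ℂ N) : ℂ :=
  ∑' n : ℕ, ψ (n : ZMod N) * ((n : ℂ) ^ 3)⁻¹

theorem summable_norm_LChar (ψ : DirichletCharacter ℂ N) :
    Summable fun n : ℕ => ‖ψ (n : ZMod N) * ((n : ℂ) ^ 3)⁻¹‖ := by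
  have h : Summable fun n : ℕ => ‖((n : ℂ) ^ 3)⁻¹‖ := by
    simp
  refine Summable.of_nonneg_of_le (fun _ => norm_nonneg _) (fun n => ?_) h
  rw [norm_mul]
  exact mul_le_of_le_one_left (norm_nonneg _) (DirichletCharacter.norm_le_one ψ _)

theorem eisT_of_gammaSet_eq_divIntMap (ψ : DirichletCharacter ℂ N) (z : ℍ) {n : ℕ}
    (v : gammaSet 1 n 0) :
    eisT ψ z v = (ψ (n : ZMod N) * ((n : ℂ) ^ 3)⁻¹) * eisT ψ z (divIntMap n v) := by
  have h1 := eisSummand_of_gammaSet_eq_divIntMap 3 z v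
  have h2 : ((v.1 0 : ℤ) : ZMod N) = (n : ZMod N) * (((divIntMap n v.1) 0 : ℤ) : ZMod N) := by
    have := congrFun (gammaSet_eq_gcd_mul_divIntMap v.2) 0
    conv_lhs => rw [this]
    simp
  unfold eisT
  rw [h1, h2, map_mul]
  norm_cast
  ring

/-- The full lattice sum is `L(3, ψ)` times the sum over coprime pairs. -/
theorem tsum_eisT_eq (ψ : DirichletCharacter ℂ N) (z : ℍ) :
    ∑' v : Fin 2 → ℤ, eisT ψ z v = LChar ψ * ∑' v : gammaSet 1 1 0, eisT ψ z v := by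
  simp_rw [← gammaSetDivGcdSigmaEquiv.symm.tsum_eq (eisT ψ z), gammaSetDivGcdSigmaEquiv_symm_eq]
  rw [Summable.tsum_sigma ?hsumm, LChar,
    tsum_mul_tsum_of_summable_norm (summable_norm_LChar ψ) ((summable_norm_eisT ψ z).subtype _)]
  case hsumm =>
    exact gammaSetDivGcdSigmaEquiv.symm.summable_iff.mpr (summable_norm_eisT ψ z).of_norm
      |>.congr <| by simp
  rw [Summable.tsum_prod' ?h₁ fun b ↦ ?h₂]
  case h₁ =>
    exact summable_mul_of_summable_norm (f := fun (n : ℕ) ↦ ψ (n : ZMod N) * ((n : ℂ) ^ 3)⁻¹)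
      (g := fun (v : gammaSet 1 1 0) ↦ eisT ψ z v) (summable_norm_LChar ψ)
      ((summable_norm_eisT ψ z).subtype _)
  case h₂ =>
    simpa using ((summable_norm_eisT ψ z).subtype _).of_norm.mul_left
      (a := ψ (b : ZMod N) * ((b : ℂ) ^ 3)⁻¹)
  refine tsum_congr fun b ↦ ?_
  rcases eq_or_ne b 0 with rfl | hb
  · simp [eisT_of_gammaSet_eq_divIntMap]
  · have : NeZero b := ⟨hb⟩
    have h : ∑' (v : gammaSet 1 b 0), eisT ψ z v
        = (ψ (b : ZMod N) * ((b : ℂ) ^ 3)⁻¹) *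
          ∑' v : gammaSet 1 b 0, eisT ψ z (divIntMap b v) := by
      rw [← tsum_mul_left]
      exact tsum_congr fun v => eisT_of_gammaSet_eq_divIntMap ψ z v
    rw [h]
    simp only
    rw [tsum_mul_left]
    congr 1
    exact (gammaSetDivGcdEquiv b).tsum_eq (eisT ψ z ·)

/-! ### The twisted divisor sums -/

/-- twisted divisor sum `∑_{d e = n} ψ(d) e²` -/
noncomputable def sigmaChar (ψ : DirichletCharacter ℂ N) (n : ℕ) : ℂ :=
  ∑ x ∈ n.divisorsAntidiagonal, ψ (x.1 : ZMod N) * (x.2 : ℂ) ^ 2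

theorem sigmaChar_zero (ψ : DirichletCharacter ℂ N) : sigmaChar ψ 0 = 0 := by
  simp [sigmaChar]

theorem sigmaChar_one (ψ : DirichletCharacter ℂ N) : sigmaChar ψ 1 = 1 := by
  simp [sigmaChar]

theorem norm_sigmaChar_le (ψ : DirichletCharacter ℂ N) (n : ℕ) :
    ‖sigmaChar ψ n‖ ≤ (n : ℝ) ^ 3 := by
  unfold sigmaChar
  refine (norm_sum_le _ _).trans ?_
  have h1 : ∀ x ∈ n.divisorsAntidiagonal, ‖ψ (x.1 : ZMod N) * (x.2 : ℂ) ^ 2‖ ≤ (n : ℝ) ^ 2 := by
    intro x hx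
    rw [norm_mul, norm_pow, Complex.norm_natCast]
    have hx2 : x.2 ≤ n := Nat.le_of_dvd (Nat.pos_of_ne_zero (Nat.mem_divisorsAntidiagonal.mp hx).2)
      (Nat.dvd_of_mem_divisors (Nat.snd_mem_divisors_of_mem_antidiagonal hx))
    calc ‖ψ (x.1 : ZMod N)‖ * (x.2 : ℝ) ^ 2 ≤ 1 * (n : ℝ) ^ 2 := by
          gcongr
          exact DirichletCharacter.norm_le_one ψ _
      _ = (n : ℝ) ^ 2 := one_mul _
  refine (Finset.sum_le_sum h1).trans ?_
  rw [Nat.sum_divisorsAntidiagonal (fun _ _ => (n : ℝ) ^ 2), Finset.sum_const, nsmul_eq_mul]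
  have : ((n.divisors.card : ℕ) : ℝ) ≤ n := by exact_mod_cast Nat.card_divisors_le_self n
  calc ((n.divisors.card : ℕ) : ℝ) * (n : ℝ) ^ 2 ≤ n * (n : ℝ) ^ 2 := by gcongr
    _ = (n : ℝ) ^ 3 := by ring

theorem summable_sigmaChar_mul_pow (ψ : DirichletCharacter ℂ N) {r : ℂ} (hr : ‖r‖ < 1) :
    Summable fun n : ℕ => sigmaChar ψ n * r ^ n := by
  refine Summable.of_norm_bounded (summable_norm_pow_mul_geometric_of_norm_lt_one 3 hr) fun n => ?_
  rw [norm_mul, norm_mul, norm_pow, norm_pow, Complex.norm_natCast]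
  gcongr
  exact norm_sigmaChar_le ψ n

theorem summable_twisted_prod (ψ : DirichletCharacter ℂ N) {r : ℂ} (hr : ‖r‖ < 1) :
    Summable fun c : ℕ+ × ℕ+ =>
      ψ ((c.1 : ℕ) : ZMod N) * ((c.2 : ℕ) : ℂ) ^ 2 * r ^ (c.1 * c.2 : ℕ) := by
  have h := (summable_prod_mul_pow (𝕜 := ℂ) 2 hr).norm
  refine Summable.of_norm (Summable.of_nonneg_of_le (fun _ => norm_nonneg _) (fun c => ?_) h)
  rw [mul_assoc, norm_mul]
  exact mul_le_of_le_one_left (norm_nonneg _) (DirichletCharacter.norm_le_one ψ _)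

theorem tsum_twisted_prod_eq (ψ : DirichletCharacter ℂ N) {r : ℂ} (hr : ‖r‖ < 1) :
    ∑' m : ℕ+, ∑' d : ℕ+, ψ ((m : ℕ) : ZMod N) * ((d : ℕ) : ℂ) ^ 2 * r ^ (m * d : ℕ)
      = ∑' n : ℕ+, sigmaChar ψ n * r ^ (n : ℕ) := by
  have hs := summable_twisted_prod ψ hr
  rw [← hs.tsum_prod (f := fun c : ℕ+ × ℕ+ =>
    ψ ((c.1 : ℕ) : ZMod N) * ((c.2 : ℕ) : ℂ) ^ 2 * r ^ (c.1 * c.2 : ℕ))]
  rw [← sigmaAntidiagonalEquivProd.tsum_eq]
  have hs' : Summable fun c : (Σ n : ℕ+, (n : ℕ).divisorsAntidiagonal) =>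
      ψ (((sigmaAntidiagonalEquivProd c).1 : ℕ) : ZMod N) *
        (((sigmaAntidiagonalEquivProd c).2 : ℕ) : ℂ) ^ 2 *
        r ^ ((sigmaAntidiagonalEquivProd c).1 * (sigmaAntidiagonalEquivProd c).2 : ℕ) :=
    sigmaAntidiagonalEquivProd.summable_iff.mpr hs
  rw [Summable.tsum_sigma hs']
  refine tsum_congr fun n => ?_
  rw [tsum_fintype, sigmaChar, Finset.sum_mul]
  rw [← Finset.sum_attach ((n : ℕ).divisorsAntidiagonal)]
  simp only [Finset.univ_eq_attach]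
  refine Finset.sum_congr rfl fun x _ => ?_
  have hx := (Nat.mem_divisorsAntidiagonal.mp x.2).1
  simp only [sigmaAntidiagonalEquivProd, divisorsAntidiagonalFactors,
    Equiv.coe_fn_mk, PNat.mk_coe, hx]

/-! ### The Lipschitz formula step -/

theorem summable_prod_eisT (ψ : DirichletCharacter ℂ N) (z : ℍ) :
    Summable fun x : ℤ × ℤ ↦ eisT ψ z ![x.1, x.2] := by
  refine (finTwoArrowEquiv ℤ).summable_iff.mp <| (summable_eisT ψ z).congr (fun v ↦ ?_)
  simp [show ![v 0, v 1] = v from List.ofFn_inj.mp rfl]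

theorem eisT_neg (ψ : DirichletCharacter ℂ N) (hψ : ψ (-1) = -1) (z : ℍ) (m n : ℤ) :
    eisT ψ z ![-m, -n] = eisT ψ z ![m, n] := by
  have h1 : ψ (((-m : ℤ)) : ZMod N) = - ψ ((m : ℤ) : ZMod N) := by
    rw [Int.cast_neg, ← neg_one_mul, map_mul, hψ, neg_one_mul]
  have h2 : ((-m : ℤ) : ℂ) * (z : ℂ) + ((-n : ℤ) : ℂ) = -((m : ℂ) * z + n) := by
    push_cast; ring
  simp only [eisT, eisSummand, Matrix.cons_val_zero, Matrix.cons_val_one, h1, h2]
  rw [Odd.neg_zpow (by decide : Odd (-3 : ℤ))]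
  ring

theorem ne_one_of_odd (ψ : DirichletCharacter ℂ N) (hψ : ψ (-1) = -1) : N ≠ 1 := by
  rintro rfl
  have h : (-1 : ZMod 1) = 1 := Subsingleton.elim _ _
  rw [h, map_one] at hψ
  norm_num at hψ

/-- The full lattice sum as a `q`-series (odd `ψ`). -/
theorem tsum_eisT_eq_qseries (ψ : DirichletCharacter ℂ N) (hψ : ψ (-1) = -1) (z : ℍ) :
    ∑' v : Fin 2 → ℤ, eisT ψ z v = 2 * ((-2 * π * I) ^ 3 / 2!) *
      ∑' n : ℕ+, sigmaChar ψ n * cexp (2 * π * I * z) ^ (n : ℕ) := by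
  have hN : N ≠ 1 := ne_one_of_odd ψ hψ
  have : Nontrivial (ZMod N) := ZMod.nontrivial_iff.mpr hN
  rw [← (finTwoArrowEquiv ℤ).symm.tsum_eq, finTwoArrowEquiv_symm_apply,
    Summable.tsum_prod (summable_prod_eisT ψ z),
    tsum_int_eq_zero_add_two_mul_tsum_pnat (fun n ↦ ?h₁)
      (by simpa using (summable_prod_eisT ψ z).prod)]
  case h₁ =>
    nth_rewrite 1 [← tsum_comp_neg]
    exact tsum_congr fun y ↦ eisT_neg ψ hψ z n y
  have h0 : ∑' n : ℤ, eisT ψ z ![0, n] = 0 := by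
    simp [eisT, MulChar.map_zero]
  have H (b : ℕ+) := qExpansion_identity_pnat (k := 2) (by norm_num) ⟨b * z, by simpa using z.2⟩
  simp only [one_div] at H
  rw [h0, zero_add, nsmul_eq_mul, Nat.cast_ofNat, mul_assoc]
  congr 1
  rw [← tsum_twisted_prod_eq ψ (norm_exp_two_pi_I_lt_one z), ← tsum_mul_left]
  refine tsum_congr fun m => ?_
  have h3 : ∑' n : ℤ, eisT ψ z ![(m : ℤ), n]
      = ψ ((m : ℕ) : ZMod N) * ∑' n : ℤ, (((m : ℕ) : ℂ) * z + n)⁻¹ ^ 3 := by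
    rw [← tsum_mul_left]
    refine tsum_congr fun n => ?_
    simp only [eisT, eisSummand, Matrix.cons_val_zero, Matrix.cons_val_one, _root_.zpow_neg,
      Int.cast_natCast, inv_pow]
    norm_cast
  rw [h3]
  have H' := H m
  simp only [inv_pow] at H' ⊢
  rw [show (2 + 1 : ℕ) = 3 from rfl] at H'
  rw [H', ← tsum_mul_left, ← tsum_mul_left, ← tsum_mul_left]
  refine tsum_congr fun d => ?_
  rw [← Complex.exp_nat_mul, ← Complex.exp_nat_mul]
  have : (((m : ℕ) * (d : ℕ) : ℕ) : ℂ) * (2 * π * I * z)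
      = (d : ℕ) * (2 * π * I * ((m : ℕ) * z)) := by
    push_cast; ring
  rw [this]
  ring

/-! ### The normalised Eisenstein series -/

/-- the normalising constant -/
noncomputable def eisConst (ψ : DirichletCharacter ℂ N) : ℂ :=
  LChar ψ / (2 * ((-2 * π * I) ^ 3 / 2!))

/-- The normalised weight 3 Eisenstein series with character `ψ`, as a function. -/
noncomputable def eisCharFun (ψ : DirichletCharacter ℂ N) : ℍ → ℂ :=
  eisConst ψ • eisG ψ

theorem eisCharFun_eq_tsum (ψ : DirichletCharacter ℂ N) (hψ : ψ (-1) = -1) (z : ℍ) :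
    eisCharFun ψ z = ∑' n : ℕ+, sigmaChar ψ n * cexp (2 * π * I * z) ^ (n : ℕ) := by
  have h1 := tsum_eisT_eq ψ z
  rw [tsum_eisT_eq_qseries ψ hψ z, ← eisG_eq_tsum_coprime] at h1
  have hc : (2 * ((-2 * π * I) ^ 3 / 2!) : ℂ) ≠ 0 := by
    have hpi : (π : ℂ) ≠ 0 := by exact_mod_cast Real.pi_ne_zero
    have : (-2 * (π : ℂ) * I) ≠ 0 := by
      simp [hpi, I_ne_zero]
    have h2 : ((2! : ℕ) : ℂ) ≠ 0 := by norm_num
    exact mul_ne_zero two_ne_zero (div_ne_zero (pow_ne_zero _ this) h2)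
  simp only [eisCharFun, eisConst, Pi.smul_apply, smul_eq_mul]
  rw [div_mul_eq_mul_div, ← h1, mul_div_cancel_left₀ _ hc]

theorem eisCharFun_hasSum (ψ : DirichletCharacter ℂ N) (hψ : ψ (-1) = -1) (z : ℍ) :
    HasSum (fun n : ℕ => sigmaChar ψ n * cexp (2 * π * I * z) ^ n) (eisCharFun ψ z) := by
  have hs := summable_sigmaChar_mul_pow ψ (norm_exp_two_pi_I_lt_one z)
  rw [eisCharFun_eq_tsum ψ hψ z]
  have := tsum_zero_pnat_eq_tsum_nat (f := fun n : ℕ => sigmaChar ψ n * cexp (2 * π * I * z) ^ n) hs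
  simp only [sigmaChar_zero, zero_mul, zero_add] at this
  rw [this]
  exact hs.hasSum

theorem eisCharFun_slash (ψ : DirichletCharacter ℂ N) (γ : SL(2, ℤ)) (hγ : γ ∈ Gamma0 N) :
    (eisCharFun ψ) ∣[(3:ℤ)] γ = ψ ((γ 1 1 : ℤ) : ZMod N) • eisCharFun ψ := by
  unfold eisCharFun
  rw [ModularForm.SL_smul_slash, eisG_slash ψ γ hγ, smul_comm]

theorem eisG_mdiff (ψ : DirichletCharacter ℂ N) : MDiff (eisG ψ) := by
  have := (eisGMF ψ).holo'
  rwa [show (⇑(eisGMF ψ).toSlashInvariantForm : ℍ → ℂ) = eisG ψ from eisGMF_coe ψ] at this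

theorem eisCharFun_mdiff (ψ : DirichletCharacter ℂ N) : MDiff (eisCharFun ψ) :=
  (eisG_mdiff ψ).const_smul _

theorem eisG_isBoundedAtImInfty_slash (ψ : DirichletCharacter ℂ N) (γ : SL(2, ℤ)) :
    IsBoundedAtImInfty ((eisG ψ) ∣[(3:ℤ)] γ) := by
  have hc : IsCusp (Matrix.SpecialLinearGroup.mapGL ℝ γ • OnePoint.infty) 𝒮ℒ :=
    isCusp_SL2Z_iff'.mpr ⟨γ, rfl⟩
  have hc' : IsCusp (Matrix.SpecialLinearGroup.mapGL ℝ γ • OnePoint.infty)
      (Γ(N) : Subgroup (GL (Fin 2) ℝ)) :=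
    (Subgroup.IsArithmetic.isCusp_iff_isCusp_SL2Z _).mpr hc
  have h := (eisGMF ψ).bdd_at_cusps' hc'
  rw [OnePoint.isBoundedAt_iff_forall_SL2Z hc] at h
  have := h γ rfl
  rwa [show ((eisGMF ψ).toFun : ℍ → ℂ) = eisG ψ from eisGMF_coe ψ] at this

theorem eisCharFun_isBoundedAtImInfty_slash (ψ : DirichletCharacter ℂ N) (γ : SL(2, ℤ)) :
    IsBoundedAtImInfty ((eisCharFun ψ) ∣[(3:ℤ)] γ) := by
  unfold eisCharFun
  rw [ModularForm.SL_smul_slash]
  exact (eisG_isBoundedAtImInfty_slash ψ γ).const_smul_left _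

/-- The normalised weight 3 Eisenstein series with character `ψ`, a modular form on `Γ₁(N)`. -/
noncomputable def eisChar (ψ : DirichletCharacter ℂ N) : ModularForm (Gamma1 N) 3 where
  toFun := eisCharFun ψ
  slash_action_eq' A hA := by
    obtain ⟨γ, hγ, rfl⟩ := hA
    have hγ0 : γ ∈ Gamma0 N := Gamma1_in_Gamma0 N hγ
    have h11 : ((γ 1 1 : ℤ) : ZMod N) = 1 := ((Gamma1_mem N γ).mp hγ).2.1
    have := eisCharFun_slash ψ γ hγ0
    rw [h11, map_one, one_smul] at this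
    exact this
  holo' := eisCharFun_mdiff ψ
  bdd_at_cusps' {c} hc := by
    rw [Subgroup.IsArithmetic.isCusp_iff_isCusp_SL2Z] at hc
    rw [OnePoint.isBoundedAt_iff_forall_SL2Z hc]
    exact fun γ _ => eisCharFun_isBoundedAtImInfty_slash ψ γ

theorem eisChar_coe (ψ : DirichletCharacter ℂ N) : (eisChar ψ : ℍ → ℂ) = eisCharFun ψ := rfl

/-- **q-expansion of the Eisenstein series with character.** -/
theorem qExpansion_eisChar_coeff (ψ : DirichletCharacter ℂ N) (hψ : ψ (-1) = -1) (n : ℕ) :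
    (qExpansion 1 (eisChar ψ)).coeff n = sigmaChar ψ n := by
  have h1 : (1 : ℝ) ∈ (Gamma1 N : Subgroup (GL (Fin 2) ℝ)).strictPeriods := by
    simp
  refine (ModularFormClass.qExpansion_coeff_unique (c := sigmaChar ψ) one_pos h1
    (f := eisChar ψ) (fun τ => ?_) n).symm
  have := eisCharFun_hasSum ψ hψ τ
  convert this using 2 with m
  · simp [Function.Periodic.qParam]
  · rfl


theorem eisChar_apply (ψ : DirichletCharacter ℂ N) (z : ℍ) : eisChar ψ z = eisCharFun ψ z := rfl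

theorem qExpansion_eisCharFun_coeff (ψ : DirichletCharacter ℂ N) (hψ : ψ (-1) = -1) (n : ℕ) :
    (qExpansion 1 (eisCharFun ψ)).coeff n = sigmaChar ψ n :=
  qExpansion_eisChar_coeff ψ hψ n

theorem eisCharFun_ne_zero (ψ : DirichletCharacter ℂ N) (hψ : ψ (-1) = -1) :
    eisCharFun ψ ≠ 0 := by
  intro h
  have h1 := qExpansion_eisCharFun_coeff ψ hψ 1
  rw [h, sigmaChar_one, qExpansion_zero] at h1
  simp at h1

/-! ### Galois equivariance of the `q`-expansion -/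

theorem sigmaChar_ringHomComp (ψ : DirichletCharacter ℂ N) (σ : ℂ →+* ℂ) (n : ℕ) :
    sigmaChar (ψ.ringHomComp σ) n = σ (sigmaChar ψ n) := by
  simp [sigmaChar, MulChar.ringHomComp_apply]

theorem ringHomComp_neg_one (ψ : DirichletCharacter ℂ N) (hψ : ψ (-1) = -1) (σ : ℂ →+* ℂ) :
    (ψ.ringHomComp σ) (-1) = -1 := by
  rw [MulChar.ringHomComp_apply, hψ, map_neg, map_one]

/-- **Galois equivariance.** -/
theorem qExpansion_eisCharFun_map (ψ : DirichletCharacter ℂ N) (hψ : ψ (-1) = -1)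
    (σ : ℂ →+* ℂ) :
    (qExpansion 1 (eisCharFun ψ)).map σ = qExpansion 1 (eisCharFun (ψ.ringHomComp σ)) := by
  ext n
  rw [PowerSeries.coeff_map, qExpansion_eisCharFun_coeff ψ hψ,
    qExpansion_eisCharFun_coeff _ (ringHomComp_neg_one ψ hψ σ), sigmaChar_ringHomComp]

end Fermat.Agent.S48.H908
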