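import Fermat.Agent.S23.Cap.Galois
import Fermat.Agent.S23.H908.Converse
import Fermat.Agent.S48.H908.EisChar

/-!
# S48 / P1 (helper908): nebentypus predicate, packaging of cusp forms, small analytic lemmas
-/

set_option autoImplicit false
set_option linter.unusedSectionVars false

namespace Fermat.Agent.S48.H908

open ModularForm CongruenceSubgroup MatrixGroups Complex Matrix Filter Topology
open scoped Real Nat Manifold
open UpperHalfPlane hiding I
open Fermat.Agent.S23.Cap (G0 IsCF IsMF qx)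
open Fermat.Agent.S23.Conv (IsNice)

variable {N : ℕ} [NeZero N]


/-! ### Nebentypus -/

/-- `f` transforms under `Γ₀(N)` in weight `k` by the character `χ` (of the lower right entry). -/
def HasNeb (N : ℕ) (k : ℤ) (χ : DirichletCharacter ℂ N) (f : ℍ → ℂ) : Prop :=
  ∀ γ : SL(2, ℤ), γ ∈ Gamma0 N → f ∣[k] γ = χ ((γ 1 1 : ℤ) : ZMod N) • f

theorem isUnit_of_mem_Gamma0 {γ : SL(2, ℤ)} (hγ : γ ∈ Gamma0 N) :
    IsUnit ((γ 1 1 : ℤ) : ZMod N) := by
  have h10 : ((γ 1 0 : ℤ) : ZMod N) = 0 := Gamma0_mem.mp hγ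
  have hdet : γ 0 0 * γ 1 1 - γ 0 1 * γ 1 0 = 1 := by
    have := γ.det_coe
    rwa [Matrix.det_fin_two] at this
  have h : ((γ 0 0 : ℤ) : ZMod N) * ((γ 1 1 : ℤ) : ZMod N) = 1 := by
    have := congrArg (Int.cast : ℤ → ZMod N) hdet
    push_cast at this
    rw [h10, mul_zero, sub_zero] at this
    exact this
  exact IsUnit.of_mul_eq_one_right _ h

theorem HasNeb.mul {k₁ k₂ : ℤ} {χ₁ χ₂ : DirichletCharacter ℂ N} {f g : ℍ → ℂ}
    (hf : HasNeb N k₁ χ₁ f) (hg : HasNeb N k₂ χ₂ g) : HasNeb N (k₁ + k₂) (χ₁ * χ₂) (f * g) := by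
  intro γ hγ
  rw [ModularForm.mul_slash_SL2, hf γ hγ, hg γ hγ, MulChar.mul_apply]
  ext z
  simp only [Pi.mul_apply, Pi.smul_apply, smul_eq_mul]
  ring

theorem HasNeb.pow {k : ℤ} {χ : DirichletCharacter ℂ N} {f : ℍ → ℂ}
    (hf : HasNeb N k χ f) (n : ℕ) : HasNeb N (n * k) (χ ^ n) (f ^ n) := by
  induction n with
  | zero =>
    intro γ hγ
    have hu := isUnit_of_mem_Gamma0 hγ
    simp only [pow_zero, Nat.cast_zero, zero_mul]
    rw [MulChar.one_apply hu, one_smul]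
    exact ModularForm.is_invariant_one γ
  | succ n ih =>
    have := ih.mul hf
    rw [pow_succ, pow_succ]
    convert this using 1
    push_cast; ring

theorem HasNeb.invariant {k : ℤ} {f : ℍ → ℂ} (hf : HasNeb N k 1 f) (γ : SL(2, ℤ))
    (hγ : γ ∈ Gamma0 N) : f ∣[k] γ = f := by
  rw [hf γ hγ, MulChar.one_apply (isUnit_of_mem_Gamma0 hγ), one_smul]



/-! ### Packaging and unpackaging -/

/-- `Γ₁(N)` as a subgroup of `GL(2,ℝ)`. -/
abbrev G1 (N : ℕ) : Subgroup (GL (Fin 2) ℝ) :=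
  Subgroup.map (Matrix.SpecialLinearGroup.mapGL ℝ) (Gamma1 N)

theorem G1_le_SLZ (N : ℕ) : G1 N ≤ 𝒮ℒ := Subgroup.map_le_range _ _

theorem isZeroAtImInfty_slash_of_cuspForm {Γ : Subgroup (GL (Fin 2) ℝ)} [Γ.IsArithmetic]
    {k : ℤ} (f : CuspForm Γ k) (γ : SL(2, ℤ)) : IsZeroAtImInfty ((f : ℍ → ℂ) ∣[k] γ) := by
  have hc : IsCusp (Matrix.SpecialLinearGroup.mapGL ℝ γ • OnePoint.infty) 𝒮ℒ :=
    isCusp_SL2Z_iff'.mpr ⟨γ, rfl⟩
  have hc' : IsCusp (Matrix.SpecialLinearGroup.mapGL ℝ γ • OnePoint.infty) Γ :=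
    (Subgroup.IsArithmetic.isCusp_iff_isCusp_SL2Z _).mpr hc
  have h := f.zero_at_cusps' hc'
  rw [OnePoint.isZeroAt_iff_forall_SL2Z hc] at h
  exact h γ rfl

theorem isBoundedAtImInfty_slash_of_modularForm {Γ : Subgroup (GL (Fin 2) ℝ)} [Γ.IsArithmetic]
    {k : ℤ} (f : ModularForm Γ k) (γ : SL(2, ℤ)) : IsBoundedAtImInfty ((f : ℍ → ℂ) ∣[k] γ) := by
  have hc : IsCusp (Matrix.SpecialLinearGroup.mapGL ℝ γ • OnePoint.infty) 𝒮ℒ :=
    isCusp_SL2Z_iff'.mpr ⟨γ, rfl⟩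
  have hc' : IsCusp (Matrix.SpecialLinearGroup.mapGL ℝ γ • OnePoint.infty) Γ :=
    (Subgroup.IsArithmetic.isCusp_iff_isCusp_SL2Z _).mpr hc
  have h := f.bdd_at_cusps' hc'
  rw [OnePoint.isBoundedAt_iff_forall_SL2Z hc] at h
  exact h γ rfl

/-- packaging a cusp form on `Γ₀(N)` -/
theorem isCF_G0_of {k : ℤ} {F : ℍ → ℂ} (hF : MDiff F)
    (hinv : ∀ γ : SL(2, ℤ), γ ∈ Gamma0 N → F ∣[k] γ = F)
    (hz : ∀ γ : SL(2, ℤ), IsZeroAtImInfty (F ∣[k] γ)) : IsCF (G0 N) k F := by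
  refine ⟨{ toFun := F
            slash_action_eq' := ?_
            holo' := hF
            zero_at_cusps' := ?_ }, rfl⟩
  · intro A hA
    obtain ⟨γ, hγ, rfl⟩ := hA
    exact hinv γ hγ
  · intro c hc
    rw [OnePoint.isZeroAt_iff_forall_SL2Z (hc.mono (Fermat.Agent.S23.Cap.G0_le_SLZ N))]
    exact fun γ _ => hz γ

/-- packaging a cusp form on `Γ₁(N)` -/
theorem exists_cuspForm_G1_of {k : ℤ} {F : ℍ → ℂ} (hF : MDiff F)
    (hinv : ∀ γ : SL(2, ℤ), γ ∈ Gamma1 N → F ∣[k] γ = F)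
    (hz : ∀ γ : SL(2, ℤ), IsZeroAtImInfty (F ∣[k] γ)) :
    ∃ g : CuspForm (Gamma1 N) k, (g : ℍ → ℂ) = F := by
  refine ⟨{ toFun := F
            slash_action_eq' := ?_
            holo' := hF
            zero_at_cusps' := ?_ }, rfl⟩
  · intro A hA
    obtain ⟨γ, hγ, rfl⟩ := hA
    exact hinv γ hγ
  · intro c hc
    rw [OnePoint.isZeroAt_iff_forall_SL2Z (hc.mono (G1_le_SLZ N))]
    exact fun γ _ => hz γ

theorem IsCF.mdiff {Γ : Subgroup (GL (Fin 2) ℝ)} {k : ℤ} {F : ℍ → ℂ} (h : IsCF Γ k F) :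
    MDiff F := by
  obtain ⟨g, rfl⟩ := h
  exact g.holo'

theorem IsCF.isZeroAtImInfty_slash {k : ℤ} {F : ℍ → ℂ} (h : IsCF (G0 N) k F) (γ : SL(2, ℤ)) :
    IsZeroAtImInfty (F ∣[k] γ) := by
  obtain ⟨g, rfl⟩ := h
  exact isZeroAtImInfty_slash_of_cuspForm g γ

theorem IsCF.invariant {k : ℤ} {F : ℍ → ℂ} (h : IsCF (G0 N) k F) (γ : SL(2, ℤ))
    (hγ : γ ∈ Gamma0 N) : F ∣[k] γ = F := by
  obtain ⟨g, rfl⟩ := h
  exact g.slash_action_eq' _ ⟨γ, hγ, rfl⟩

theorem one_mem_strictPeriods_G1 (N : ℕ) : (1 : ℝ) ∈ (G1 N).strictPeriods := by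
  simp

theorem one_mem_strictPeriods_G0 (N : ℕ) : (1 : ℝ) ∈ (G0 N).strictPeriods := by
  simp

theorem IsCF.isNice {k : ℤ} {F : ℍ → ℂ} (h : IsCF (G0 N) k F) : IsNice F := by
  obtain ⟨g, rfl⟩ := h
  exact Fermat.Agent.S23.Conv.isNice_of_modularFormClass (one_mem_strictPeriods_G0 N) g

theorem isNice_cuspForm_G1 {k : ℤ} (f : CuspForm (Gamma1 N) k) : IsNice (f : ℍ → ℂ) :=
  Fermat.Agent.S23.Conv.isNice_of_modularFormClass (one_mem_strictPeriods_G1 N) f

theorem isNice_eisCharFun (ψ : DirichletCharacter ℂ N) : IsNice (eisCharFun ψ) :=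
  Fermat.Agent.S23.Conv.isNice_of_modularFormClass (one_mem_strictPeriods_G1 N) (eisChar ψ)



theorem IsNice.neg' {f : ℍ → ℂ} (hf : IsNice f) : IsNice (-f) := by
  refine ⟨hf.1.neg, fun z => ?_, hf.2.2.neg⟩
  have h1 := hf.2.1 z
  simp only [Function.comp_apply, Pi.neg_apply] at h1 ⊢
  rw [h1]

theorem IsNice.eq_of_qExpansion_eq {f g : ℍ → ℂ} (hf : IsNice f) (hg : IsNice g)
    (h : qExpansion 1 f = qExpansion 1 g) : f = g := by
  have hd : IsNice (f + -g) := hf.add (IsNice.neg' hg)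
  have h0 : qExpansion 1 (f + -g) = 0 := by
    rw [IsNice.qExpansion_add hf (IsNice.neg' hg), UpperHalfPlane.qExpansion_neg hg.analyticAt, h,
      add_neg_cancel]
  have := hd.qExpansion_eq_zero_iff.mp h0
  have h2 : f - g = 0 := by rw [sub_eq_add_neg]; exact this
  exact sub_eq_zero.mp h2

theorem pow_slash_SL2 (k : ℤ) (n : ℕ) (γ : SL(2, ℤ)) (f : ℍ → ℂ) :
    (f ^ n) ∣[(n : ℤ) * k] γ = (f ∣[k] γ) ^ n := by
  induction n with
  | zero =>
    simp only [pow_zero, Nat.cast_zero, zero_mul]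
    exact ModularForm.is_invariant_one γ
  | succ n ih =>
    rw [pow_succ, pow_succ, ← ih, ← ModularForm.mul_slash_SL2]
    congr 1
    push_cast; ring

theorem isBoundedAtImInfty_pow {F : ℍ → ℂ} (hF : IsBoundedAtImInfty F) (n : ℕ) :
    IsBoundedAtImInfty (F ^ n) := by
  induction n with
  | zero =>
    rw [pow_zero]
    exact Filter.const_boundedAtFilter _ (1 : ℂ)
  | succ n ih =>
    rw [pow_succ]
    exact ih.mul hF

theorem isZeroAtImInfty_pow {F : ℍ → ℂ} (hF : IsZeroAtImInfty F) {n : ℕ} (hn : 0 < n) :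
    IsZeroAtImInfty (F ^ n) := by
  obtain ⟨n, rfl⟩ := Nat.exists_eq_succ_of_ne_zero hn.ne'
  rw [pow_succ]
  exact (isBoundedAtImInfty_pow hF.boundedAtFilter n).mul_zeroAtFilter hF

theorem isZeroAtImInfty_of_pow {F G : ℍ → ℂ} {n : ℕ} (hG : IsZeroAtImInfty G)
    (h : F ^ n = G) : IsZeroAtImInfty F := by
  classical
  refine Fermat.Agent.S23.H908.isZeroAtImInfty_of_monic_eq (n := n)
    (e := fun i => if i = n then -G else 0) ?_ ?_
  · intro i _
    by_cases hi : i = n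
    · simp only [hi, if_true]
      exact hG.neg
    · simp only [hi, if_false]
      exact Filter.zero_zeroAtFilter _
  · intro τ
    rcases Nat.eq_zero_or_pos n with hn | hn
    · subst hn
      exfalso
      have h1 := congrFun h τ
      simp only [pow_zero, Pi.one_apply] at h1
      -- G τ = 1 for all τ contradicts G → 0
      have h2 : G = 1 := by rw [← h, pow_zero]
      rw [h2] at hG
      have : Tendsto (fun _ : ℍ => (1 : ℂ)) atImInfty (𝓝 0) := hG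
      have h3 := tendsto_nhds_unique this tendsto_const_nhds
      exact zero_ne_one h3
    · rw [Finset.sum_eq_single n]
      · have h1 := congrFun h τ
        simp only [Pi.pow_apply] at h1
        simp [h1]
      · intro i _ hi
        simp [hi]
      · intro hn'
        exact absurd (Finset.mem_Icc.mpr ⟨hn, le_rfl⟩) hn'

end Fermat.Agent.S48.H908
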